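import Fermat.Agent.HeckeDatum.TraceInvariance
import Fermat.Agent.Oddness.Det
import Mathlib.LinearAlgebra.Matrix.Charpoly.Coeff

/-!
Comparison of two rank two Galois representations whose Frobenius elements have the same integral
characteristic polynomials, using Frobenius density.
-/

set_option autoImplicit false

noncomputable section

namespace Fermat.Agent.ConductorLevel

open Polynomial Fermat.Agent.HeckeDatum

local notation "Qbar" => AlgebraicClosure ℚ
local notation "Γℚ" => (AlgebraicClosure ℚ ≃ₐ[ℚ] AlgebraicClosure ℚ)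

section RankTwo

variable {R : Type*} [CommRing R] {V : Type*} [AddCommGroup V] [Module R V] [Module.Free R V]
  [Module.Finite R V]

/-- The characteristic polynomial of an endomorphism of a free module of rank two. -/
theorem charpoly_eq_of_finrank_two [Nontrivial R] (hV : Module.finrank R V = 2)
    (f : Module.End R V) :
    LinearMap.charpoly f =
      X ^ 2 - C (LinearMap.trace R V f) * X + C (LinearMap.det f) := by
  classical
  let b := Module.finBasisOfFinrankEq R V hV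
  rw [← LinearMap.charpoly_toMatrix f b, Matrix.charpoly_fin_two,
    LinearMap.trace_eq_matrix_trace R b, ← LinearMap.det_toMatrix b]

/-- In rank two the constant term of the characteristic polynomial is the determinant. -/
theorem det_eq_of_charpoly [Nontrivial R] (hV : Module.finrank R V = 2) {F : Module.End R V}
    {t e : R} (hF : LinearMap.charpoly F = X ^ 2 - C t * X + C e) : LinearMap.det F = e := by
  have h := congrArg (fun P : R[X] => P.coeff 0) (charpoly_eq_of_finrank_two hV F)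
  rw [hF] at h
  simpa using h.symm

/-- Endomorphisms congruent modulo `I` have congruent traces and determinants. -/
theorem trace_det_congr (I : Ideal R) {f g : Module.End R V}
    (h : ∀ v : V, f v - g v ∈ I • (⊤ : Submodule R V)) :
    LinearMap.trace R V f - LinearMap.trace R V g ∈ I ∧
      LinearMap.det f - LinearMap.det g ∈ I := by
  classical
  refine ⟨by rw [← map_sub]; exact trace_mem_of_forall_mem_smul_top I h, ?_⟩
  let b := Module.Free.chooseBasis R V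
  have hM : (LinearMap.toMatrix b b f).map (Ideal.Quotient.mk I) =
      (LinearMap.toMatrix b b g).map (Ideal.Quotient.mk I) := by
    refine Matrix.ext fun i j => ?_
    rw [Matrix.map_apply, Matrix.map_apply, LinearMap.toMatrix_apply, LinearMap.toMatrix_apply,
      Ideal.Quotient.eq, ← Finsupp.sub_apply, ← map_sub]
    refine Submodule.smul_induction_on (p := fun v => b.repr v i ∈ I) (h (b j)) ?_ ?_
    · intro r hr w _
      rw [map_smul, Finsupp.smul_apply, smul_eq_mul]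
      exact I.mul_mem_right _ hr
    · intro u w hu hw
      rw [map_add, Finsupp.add_apply]
      exact I.add_mem hu hw
  rw [← Ideal.Quotient.eq, ← LinearMap.det_toMatrix b, ← LinearMap.det_toMatrix b,
    RingHom.map_det, RingHom.map_det, RingHom.mapMatrix_apply, RingHom.mapMatrix_apply, hM]

end RankTwo

/-- The compositum of two finite levels is a finite level. -/
theorem exists_common_level {L₁ L₂ : IntermediateField ℚ Qbar} (h₁ : FiniteDimensional ℚ L₁)
    (h₂ : FiniteDimensional ℚ L₂) : FiniteDimensional ℚ ↑(L₁ ⊔ L₂) :=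
  have := h₁
  have := h₂
  inferInstance

variable {m : ℕ} {T : Type} [AddCommGroup T] [Module (ZMod m) T]
  {r : Γℚ →* Module.End (ZMod m) T}

theorem intCast_powTrace {R : Type*} [CommRing R] (t : ℤ) (ℓ k : ℕ) :
    ((powTrace t (ℓ : ℤ) k : ℤ) : R) = powTrace (t : R) (ℓ : R) k := by
  simpa using map_powTrace (Int.castRingHom R) t (ℓ : ℤ) k

/-- A representation of level `L` depends only on the restriction to `L`. -/
theorem map_eq_of_eqOn {M : Type} [MulOneClass M] {ρ : Γℚ →* M} {L : IntermediateField ℚ Qbar}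
    (hL : ∀ σ : Γℚ, (∀ x ∈ L, σ x = x) → ρ σ = 1) {g h : Γℚ} (hgh : ∀ x ∈ L, g x = h x) :
    ρ g = ρ h := by
  have h1 : ρ (h⁻¹ * g) = 1 := hL _ fun x hx => by
    rw [AlgEquiv.mul_apply, hgh x hx]; exact AlgEquiv.symm_apply_apply h x
  calc ρ g = ρ (h * (h⁻¹ * g)) := by rw [mul_inv_cancel_left]
    _ = ρ h := by rw [map_mul, h1, mul_one]

/-- Two representations with the same integral Frobenius polynomials outside a finite set have
congruent traces and determinants everywhere. -/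
theorem exists_trace_det_congr (hdense : FrobeniusPowDense) {O : Type} [CommRing O]
    [IsLocalRing O] (ρ : GaloisRepAdic O) (n : ℕ) [Nontrivial (ZMod m)]
    [Module.Free (ZMod m) T] [Module.Finite (ZMod m) T]
    (hT : Module.finrank (ZMod m) T = 2) (hr : GaloisFactorsThroughFiniteLevel r)
    (S : Finset ℕ) (a : ℕ → ℤ)
    (hρ : ∀ ℓ : ℕ, ℓ.Prime → ℓ ∉ S → ∀ A : ValuationSubring Qbar, A.LiesOverPrime ℓ →
      ∀ φ : Γℚ, A.IsFrobeniusAt φ ℓ →
        LinearMap.charpoly (ρ.ρ φ) = X ^ 2 - C ((a ℓ : ℤ) : O) * X + C (ℓ : O))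
    (hrF : ∀ ℓ : ℕ, ℓ.Prime → ℓ ∉ S → ∀ A : ValuationSubring Qbar, A.LiesOverPrime ℓ →
      ∀ φ : Γℚ, A.IsFrobeniusAt φ ℓ →
        LinearMap.charpoly (r φ) = X ^ 2 - C ((a ℓ : ℤ) : ZMod m) * X + C (ℓ : ZMod m))
    (σ : Γℚ) :
    ∃ x y : ℤ, LinearMap.trace (ZMod m) T (r σ) = x ∧ LinearMap.det (r σ) = y ∧
      LinearMap.trace O ρ.V (ρ.ρ σ) - (x : O) ∈ IsLocalRing.maximalIdeal O ^ n ∧
      LinearMap.det (ρ.ρ σ) - (y : O) ∈ IsLocalRing.maximalIdeal O ^ n := by
  obtain ⟨L₁, hL₁, hcont⟩ := ρ.isAdicContinuous n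
  obtain ⟨L₂, hL₂, hfac⟩ := hr
  obtain ⟨ℓ, hℓ, hℓS, A, hA, φ, hφ, k, hk⟩ :=
    hdense (L₁ ⊔ L₂) (exists_common_level hL₁ hL₂) σ S
  have h2 : r σ = r φ ^ k := by
    rw [map_eq_of_eqOn hfac fun x hx => hk x (le_sup_right (a := L₁) hx), map_pow]
  have h1 := trace_det_congr (IsLocalRing.maximalIdeal O ^ n) fun v =>
    apply_sub_apply_mem ρ hcont (fun x hx => hk x (le_sup_left (b := L₂) hx)) v
  rw [map_pow ρ.ρ, trace_pow_of_charpoly ρ.finrank_eq (hρ ℓ hℓ hℓS A hA φ hφ),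
    map_pow LinearMap.det, det_eq_of_charpoly ρ.finrank_eq (hρ ℓ hℓ hℓS A hA φ hφ)] at h1
  refine ⟨powTrace (a ℓ) (ℓ : ℤ) k, (ℓ : ℤ) ^ k, ?_, ?_, ?_, ?_⟩
  · rw [h2, trace_pow_of_charpoly hT (hrF ℓ hℓ hℓS A hA φ hφ), intCast_powTrace]
  · rw [h2, map_pow, det_eq_of_charpoly hT (hrF ℓ hℓ hℓS A hA φ hφ)]
    push_cast; rfl
  · rw [intCast_powTrace]
    exact h1.1
  · push_cast
    exact h1.2

/-- A representation with cyclotomic Frobenius determinants is odd. -/
theorem det_involution_eq_neg_one (hdense : FrobeniusPowDense) [NeZero m] [Nontrivial (ZMod m)]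
    [Module.Free (ZMod m) T] [Module.Finite (ZMod m) T] (hT : Module.finrank (ZMod m) T = 2)
    (hr : GaloisFactorsThroughFiniteLevel r) (S : Finset ℕ) (a : ℕ → ℤ)
    (hS : ∀ ℓ : ℕ, ℓ.Prime → ℓ ∉ S → ¬ ℓ ∣ m)
    (hrF : ∀ ℓ : ℕ, ℓ.Prime → ℓ ∉ S → ∀ A : ValuationSubring Qbar, A.LiesOverPrime ℓ →
      ∀ φ : Γℚ, A.IsFrobeniusAt φ ℓ →
        LinearMap.charpoly (r φ) = X ^ 2 - C ((a ℓ : ℤ) : ZMod m) * X + C (ℓ : ZMod m))
    {c : Γℚ} (hcc : c * c = 1) (hc : c ≠ 1) : LinearMap.det (r c) = -1 := by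
  obtain ⟨ζ, hζ⟩ : ∃ ζ : Qbar, IsPrimitiveRoot ζ m :=
    HasEnoughRootsOfUnity.exists_primitiveRoot Qbar m
  have hfd : FiniteDimensional ℚ (IntermediateField.adjoin ℚ ({ζ} : Set Qbar)) :=
    IntermediateField.adjoin.finiteDimensional
      (hζ.isIntegral (NeZero.pos m) |>.tower_top)
  obtain ⟨L₂, hL₂, hfac⟩ := hr
  obtain ⟨ℓ, hℓ, hℓS, A, hA, φ, hφ, k, hk⟩ :=
    hdense (L₂ ⊔ IntermediateField.adjoin ℚ {ζ}) (exists_common_level hL₂ hfd) c S
  have hm0 : m ≠ 0 := NeZero.ne m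
  have h1 : LinearMap.det (r c) = ((ℓ ^ k : ℕ) : ZMod m) := by
    rw [map_eq_of_eqOn hfac fun x hx => hk x
      (le_sup_left (b := IntermediateField.adjoin ℚ ({ζ} : Set Qbar)) hx),
      map_pow r, map_pow, det_eq_of_charpoly hT (hrF ℓ hℓ hℓS A hA φ hφ)]
    push_cast; rfl
  have h2 : ζ ^ (m - 1) = ζ ^ ℓ ^ k := by
    rw [← Oddness.algEquiv_involution_apply_pow_eq hcc hc hm0 hζ.pow_eq_one,
      hk ζ (le_sup_right (a := L₂) (IntermediateField.mem_adjoin_simple_self ℚ ζ))]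
    exact frobenius_pow_apply_eq A hA
      ((hℓ.coprime_iff_not_dvd.mpr (hS ℓ hℓ hℓS)).symm) hm0 hφ k hζ.pow_eq_one
  have h3 : (((m - 1 : ℕ)) : ZMod m) = ((ℓ ^ k : ℕ) : ZMod m) := by
    have h4 := (hζ.isOfFinOrder hm0).pow_eq_pow_iff_modEq.mp h2
    rw [← hζ.eq_orderOf] at h4
    exact (ZMod.natCast_eq_natCast_iff _ _ _).mpr h4
  rw [h1, ← h3, Nat.cast_sub (NeZero.pos m), ZMod.natCast_self, zero_sub, Nat.cast_one]

/-- With cyclotomic Frobenius determinants, `det r σ = d` whenever `σ` raises the `m`-th roots of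
unity to the power `d`. -/
theorem det_eq_of_apply_rootsOfUnity (hdense : FrobeniusPowDense) [NeZero m] [Nontrivial (ZMod m)]
    [Module.Free (ZMod m) T] [Module.Finite (ZMod m) T]
    (hr : GaloisFactorsThroughFiniteLevel r) (S : Finset ℕ)
    (hS : ∀ ℓ : ℕ, ℓ.Prime → ℓ ∉ S → ¬ ℓ ∣ m)
    (hrF : ∀ ℓ : ℕ, ℓ.Prime → ℓ ∉ S → ∀ A : ValuationSubring Qbar, A.LiesOverPrime ℓ →
      ∀ φ : Γℚ, A.IsFrobeniusAt φ ℓ → LinearMap.det (r φ) = (ℓ : ZMod m))
    {σ : Γℚ} {d : ℕ} (hd : ∀ μ : Qbar, μ ^ m = 1 → σ μ = μ ^ d) :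
    LinearMap.det (r σ) = (d : ZMod m) := by
  obtain ⟨ζ, hζ⟩ : ∃ ζ : Qbar, IsPrimitiveRoot ζ m :=
    HasEnoughRootsOfUnity.exists_primitiveRoot Qbar m
  have hfd : FiniteDimensional ℚ (IntermediateField.adjoin ℚ ({ζ} : Set Qbar)) :=
    IntermediateField.adjoin.finiteDimensional (hζ.isIntegral (NeZero.pos m) |>.tower_top)
  obtain ⟨L₂, hL₂, hfac⟩ := hr
  obtain ⟨ℓ, hℓ, hℓS, A, hA, φ, hφ, k, hk⟩ :=
    hdense (L₂ ⊔ IntermediateField.adjoin ℚ {ζ}) (exists_common_level hL₂ hfd) σ S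
  have hm0 : m ≠ 0 := NeZero.ne m
  have h1 : LinearMap.det (r σ) = ((ℓ ^ k : ℕ) : ZMod m) := by
    rw [map_eq_of_eqOn hfac fun x hx => hk x
      (le_sup_left (b := IntermediateField.adjoin ℚ ({ζ} : Set Qbar)) hx),
      map_pow r, map_pow, hrF ℓ hℓ hℓS A hA φ hφ]
    push_cast; rfl
  have h2 : ζ ^ d = ζ ^ ℓ ^ k := by
    rw [← hd ζ hζ.pow_eq_one,
      hk ζ (le_sup_right (a := L₂) (IntermediateField.mem_adjoin_simple_self ℚ ζ))]
    exact frobenius_pow_apply_eq A hA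
      ((hℓ.coprime_iff_not_dvd.mpr (hS ℓ hℓ hℓS)).symm) hm0 hφ k hζ.pow_eq_one
  have h4 := (hζ.isOfFinOrder hm0).pow_eq_pow_iff_modEq.mp h2
  rw [← hζ.eq_orderOf] at h4
  rw [h1]
  exact ((ZMod.natCast_eq_natCast_iff _ _ _).mpr h4).symm

end Fermat.Agent.ConductorLevel
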