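import Fermat.Agent.ConductorLevel.NodalPoint
import Fermat.Agent.ECReduction.Galois
import Fermat.Agent.ECTorsion.Multiplication
import Fermat.Agent.GaloisBasics.Galois
import Mathlib.RingTheory.Valuation.Integral
import Mathlib.AlgebraicGeometry.EllipticCurve.DivisionPolynomial.Degree

/-!
At a prime of multiplicative reduction the inertia group fixes a torsion point of each exact
order prime to the residue characteristic.
-/

set_option autoImplicit false

noncomputable section

open scoped WeierstrassCurve.Affine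

namespace Fermat.Agent.ConductorLevel

open WeierstrassCurve WeierstrassCurve.Affine Polynomial Fermat.Agent.ECReduction

local notation "Qb" => AlgebraicClosure ℚ

/-- A root of the reduction of a monic polynomial over a valuation subring of an algebraically
closed field lifts to a root. -/
theorem exists_root_lift {K : Type*} [Field K] [IsAlgClosed K] (A : ValuationSubring K)
    {P : A[X]} (hP : P.Monic) {a : IsLocalRing.ResidueField A}
    (ha : (P.map (IsLocalRing.residue A)).eval a = 0) :
    ∃ r : A, (P.map A.subtype).eval (r : K) = 0 ∧ IsLocalRing.residue A r = a := by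
  classical
  have hint : ∀ r ∈ (P.map A.subtype).roots, r ∈ A := by
    intro r hr
    rw [mem_roots (hP.map _).ne_zero, IsRoot.def, eval_map] at hr
    obtain ⟨z, hz⟩ := IsIntegrallyClosed.isIntegral_iff.mp
      (show IsIntegral A r from ⟨P, hP, hr⟩)
    exact hz ▸ z.2
  set s : Multiset A := (P.map A.subtype).roots.attach.map fun r => ⟨r.1, hint r.1 r.2⟩ with hs
  have hs' : s.map (A.subtype : A → K) = (P.map A.subtype).roots := by
    rw [hs, Multiset.map_map]; exact Multiset.attach_map_val _
  have hfac : P = (s.map fun r => X - C r).prod := by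
    apply Polynomial.map_injective A.subtype Subtype.val_injective
    rw [Polynomial.map_multiset_prod, Multiset.map_map]
    conv_lhs => rw [(IsAlgClosed.splits (P.map A.subtype)).eq_prod_roots_of_monic (hP.map _),
      ← hs', Multiset.map_map]
    congr 1
    refine Multiset.map_congr rfl fun r _ => ?_
    simp
  rw [hfac, Polynomial.map_multiset_prod, Multiset.map_map, eval_multiset_prod, Multiset.map_map,
    Multiset.prod_eq_zero_iff] at ha
  obtain ⟨r, hr, hr0⟩ := Multiset.mem_map.mp ha
  simp only [Function.comp_apply, Polynomial.map_sub, map_X, map_C, eval_sub, eval_X, eval_C,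
    sub_eq_zero] at hr0
  have hmem : (r : K) ∈ (P.map A.subtype).roots := hs' ▸ Multiset.mem_map_of_mem _ hr
  exact ⟨r, (mem_roots (hP.map _).ne_zero).mp hmem, hr0.symm⟩

open scoped Classical in
/-- At a prime of multiplicative reduction not dividing `m`, inertia fixes a point of exact
order `m`. -/
theorem exists_inertia_fixed_point (W : WeierstrassCurve ℤ) {A : ValuationSubring Qb} {q m : ℕ}
    (hq : q.Prime) (hA : A.LiesOverPrime q) (hΔ : (q : ℤ) ∣ W.Δ) (hc₄ : ¬ (q : ℤ) ∣ W.c₄)
    (hm : 1 < m) (hqm : ¬ q ∣ m) :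
    ∃ P : ((W.map (Int.castRingHom ℚ))⁄Qb).Point, addOrderOf P = m ∧
      ∀ σ ∈ A.inertiaSubgroupIn ℚ, σ • P = P := by
  set κ := IsLocalRing.ResidueField A
  have : IsAlgClosed κ := GaloisBasics.residueField_isAlgClosed A
  have hmκ : (m : κ) ≠ 0 := natCast_residue_ne_zero hA hq hqm
  set F := W.map (Int.castRingHom κ) with hF
  obtain ⟨Q, hQ⟩ := exists_addOrderOf_eq F
    (by rw [hF, map_Δ]; exact (intCast_residue_eq_zero_iff hA hq _).mpr hΔ)
    (by rw [hF, map_c₄]; exact (intCast_residue_eq_zero_iff hA hq _).not.mpr hc₄) hmκ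
  rcases Q with _ | ⟨a, b, hab⟩
  · rw [← Point.zero_def, addOrderOf_zero] at hQ; omega
  -- the integral monic division polynomial
  have hroot : (F.ΨSq m).eval a = 0 :=
    (ECTorsion.nsmul_eq_zero_iff hab m).mp (hQ ▸ addOrderOf_nsmul_eq_zero _)
  have hmu : IsUnit ((m : A) ^ 2) := by
    refine IsUnit.pow _ ((IsLocalRing.residue_ne_zero_iff_isUnit _).mp ?_)
    rwa [map_natCast]
  set P : A[X] := C (↑hmu.unit⁻¹ : A) * (W.ΨSq m).map (Int.castRingHom A) with hP
  have hlead : (W.ΨSq m).leadingCoeff = (m : ℤ) ^ 2 := by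
    have := W.leadingCoeff_ΨSq (n := (m : ℤ)) (by push_cast; exact (Nat.cast_ne_zero (R := ℤ)).mpr (by omega : m ≠ 0))
    simpa using this
  have hmonic : P.Monic := by
    refine monic_C_mul_of_mul_leadingCoeff_eq_one ?_
    rw [leadingCoeff_map_of_leadingCoeff_ne_zero, hlead, map_pow, map_natCast]
    · exact hmu.val_inv_mul
    · rw [hlead, map_pow, map_natCast]; exact hmu.ne_zero
  have hPa : (P.map (IsLocalRing.residue A)).eval a = 0 := by
    rw [hP, Polynomial.map_mul, Polynomial.map_map,
      show (IsLocalRing.residue A).comp (Int.castRingHom A) = Int.castRingHom κ from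
        RingHom.ext_int _ _,
      ← WeierstrassCurve.map_ΨSq, eval_mul, hroot, mul_zero]
  obtain ⟨r, hr, hra⟩ := exists_root_lift A hmonic hPa
  set E := (W.map (Int.castRingHom ℚ))⁄Qb with hE
  have hEW : E = W.map (Int.castRingHom Qb) := by
    rw [hE, WeierstrassCurve.Affine.baseChange, WeierstrassCurve.baseChange,
      WeierstrassCurve.map_map]
    exact congrArg W.map (RingHom.ext_int _ _)
  have hrE : (WeierstrassCurve.ΨSq E m).eval (r : Qb) = 0 := by
    rw [hP, Polynomial.map_mul, Polynomial.map_map,
      show A.subtype.comp (Int.castRingHom A) = Int.castRingHom Qb from RingHom.ext_int _ _,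
      ← WeierstrassCurve.map_ΨSq, ← hEW, eval_mul, map_C, eval_C, mul_eq_zero] at hr
    exact hr.resolve_left fun h => hmu.unit⁻¹.ne_zero (Subtype.ext h)
  -- the ordinate
  obtain ⟨y, hy⟩ := IsAlgClosed.exists_root
    (C 1 * X ^ 2 + C (E.a₁ * r + E.a₃) * X +
      C (-((r : Qb) ^ 3 + E.a₂ * r ^ 2 + E.a₄ * r + E.a₆)))
    (by rw [degree_quadratic one_ne_zero]; decide)
  simp only [IsRoot.def, eval_add, eval_mul, eval_C, eval_pow, eval_X] at hy
  have he : WeierstrassCurve.Affine.Equation E (r : Qb) y := by
    rw [equation_iff]; linear_combination hy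
  have hEF : CurveRed (IsLocalRing.residue A) E F := curveRed W A
  have hx : Red (IsLocalRing.residue A) (r : Qb) a := (red_residue_iff).mpr ⟨r.2, hra⟩
  obtain ⟨b', hb'⟩ := Red.exists_of_mem (IsLocalRing.residue A) (hEF.mem_Y he r.2)
  have hnF : WeierstrassCurve.Affine.Nonsingular F a b' := by
    rcases Y_eq_of_X_eq (hEF.equation he hx hb') hab.1 rfl with h | h
    · rw [h]; exact hab
    · rw [h]; exact (nonsingular_neg ..).mpr hab
  have hn : WeierstrassCurve.Affine.Nonsingular E (r : Qb) y := hEF.nonsingular he hx hb' hnF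
  set R : E.Point := .some (r : Qb) y hn with hR
  have hred : PointRed (IsLocalRing.residue A) R (Point.some a b' hnF) := pointRed_some _ _ hx hb'
  have hQ' : addOrderOf (Point.some a b' hnF) = m := by
    rcases Y_eq_of_X_eq hnF.1 hab.1 rfl with h | h
    · subst h; exact hQ
    · subst h
      rw [← Point.neg_some, addOrderOf_neg]; exact hQ
  have hmR : m • R = 0 := (ECTorsion.nsmul_eq_zero_iff hn m).mpr hrE
  refine ⟨R, Nat.dvd_antisymm (addOrderOf_dvd_of_nsmul_eq_zero hmR) ?_, fun σ hσ => ?_⟩
  · rw [← hQ', addOrderOf_dvd_iff_nsmul_eq_zero]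
    have key : ∀ n : ℕ, PointRed (IsLocalRing.residue A) (n • R) (n • Point.some a b' hnF) := by
      intro n
      induction n with
      | zero => rw [zero_nsmul, zero_nsmul]; exact pointRed_zero
      | succ n ih => rw [succ_nsmul, succ_nsmul]; exact ih.add hEF hred
    have h0 := key (addOrderOf R)
    rw [addOrderOf_nsmul_eq_zero] at h0
    exact h0.unique pointRed_zero
  · exact smul_eq_of_inZeroComponentAt W hA hq hqm hσ hmR
      ((inZeroComponentAt_iff W R).mpr ⟨_, hred⟩)

end Fermat.Agent.ConductorLevel
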