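import Fermat.Agent.ConductorLevel.Inputs
import Fermat.Agent.ConductorLevel.Compare
import Fermat.Agent.ConductorLevel.InertiaPoint
import Fermat.Agent.ECTorsion.Structure
import Fermat.Agent.ECTorsion.Galois

/-!
# Torsion of an integral Weierstrass curve

Freeness, finite level and the action of inertia on prime power torsion, deduced from the trace
and determinant of Frobenius.
-/

set_option autoImplicit false

noncomputable section

open scoped WeierstrassCurve.Affine

namespace Fermat.Agent.ConductorLevel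

open WeierstrassCurve Fermat.Agent.HeckeDatum Polynomial

local notation "Qb" => AlgebraicClosure ℚ

/-- Frobenius trace and determinant on the prime power torsion. -/
def TorsionFrobenius (W : WeierstrassCurve ℤ) : Prop :=
  ∀ l n : ℕ, l.Prime → 0 < n → ∀ q : ℕ, q.Prime → q ≠ l → W.IsGoodPrimeFor q →
    ∀ A : ValuationSubring (AlgebraicClosure ℚ), A.LiesOverPrime q →
      ∀ φ : AlgebraicClosure ℚ ≃ₐ[ℚ] AlgebraicClosure ℚ, A.IsFrobeniusAt φ q →
        LinearMap.trace (ZMod (l ^ n)) (torsionPts W (l ^ n)) (torsionRep W (l ^ n) φ) =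
            (W.apOfModel q : ZMod (l ^ n)) ∧
          LinearMap.det (torsionRep W (l ^ n) φ) = (q : ZMod (l ^ n))

theorem torsion_free_finrank {W : WeierstrassCurve ℤ} (hΔ : W.Δ ≠ 0) {m : ℕ} (hm : 1 < m) :
    Module.Free (ZMod m) (torsionPts W m) ∧ Module.finrank (ZMod m) (torsionPts W m) = 2 := by
  have : Fact (1 < m) := ⟨hm⟩
  obtain ⟨b⟩ := ECTorsion.exists_torsionBasis_rat (W.map (Int.castRingHom ℚ))
    (by simpa [map_Δ] using hΔ) (n := m) (by omega)
  exact ⟨Module.Free.of_basis b, by rw [Module.finrank_eq_card_basis b, Fintype.card_fin]⟩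

theorem torsion_inertia {W : WeierstrassCurve ℤ} (hdense : FrobeniusPowDense) (hΔ : W.Δ ≠ 0)
    (hfrob : TorsionFrobenius W) {l n : ℕ} (hl : l.Prime) (hn : 0 < n) {q : ℕ} (hq : q.Prime)
    (hql : q ≠ l) (hred : W.IsGoodPrimeFor q ∨ ¬ (q : ℤ) ∣ W.c₄)
    {A : ValuationSubring Qb} (hA : A.LiesOverPrime q) {σ : Qb ≃ₐ[ℚ] Qb}
    (hσ : σ ∈ A.inertiaSubgroupIn ℚ) :
    LinearMap.trace (ZMod (l ^ n)) (torsionPts W (l ^ n)) (torsionRep W (l ^ n) σ) = 2 ∧
      LinearMap.det (torsionRep W (l ^ n) σ) = 1 := by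
  classical
  have hm : 1 < l ^ n := Nat.one_lt_pow hn.ne' hl.one_lt
  have : Fact (1 < l ^ n) := ⟨hm⟩
  have : NeZero (l ^ n) := ⟨by omega⟩
  obtain ⟨hfree, hrank⟩ := torsion_free_finrank hΔ hm
  have : Module.Finite (ZMod (l ^ n)) (torsionPts W (l ^ n)) :=
    Module.finite_of_finrank_eq_succ hrank
  have hcop : ¬ q ∣ l ^ n := fun h =>
    hql ((Nat.prime_dvd_prime_iff_eq hq hl).mp (hq.dvd_of_dvd_pow h))
  have hfac := ECTorsion.galoisFactorsThroughFiniteLevel (W.map (Int.castRingHom ℚ))
    (by simpa [map_Δ] using hΔ) (n := l ^ n) (by omega)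
  have hdet : LinearMap.det (torsionRep W (l ^ n) σ) = 1 := by
    rw [det_eq_of_apply_rootsOfUnity hdense hfac (insert l W.Δ.natAbs.primeFactors)
      (fun ℓ hℓ h hd => h (by
        rw [(Nat.prime_dvd_prime_iff_eq hℓ hl).mp (hℓ.dvd_of_dvd_pow hd)]
        exact Finset.mem_insert_self _ _))
      (fun ℓ hℓ h B hB φ hφ => by
        rw [Finset.mem_insert, not_or] at h
        exact (hfrob l n hl hn ℓ hℓ h.1 (fun hd => h.2 (Nat.mem_primeFactors.mpr
          ⟨hℓ, Int.natCast_dvd.mp hd, Int.natAbs_ne_zero.mpr hΔ⟩)) B hB φ hφ).2)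
      (d := 1) (fun μ hμ => by
        rw [pow_one]
        exact inertia_apply_eq A hA ((hq.coprime_iff_not_dvd.mpr hcop).symm) (by omega) hσ hμ),
      Nat.cast_one]
  refine ⟨?_, hdet⟩
  -- a fixed point of exact order `l ^ n`
  obtain ⟨P, hP, hPσ⟩ : ∃ P : torsionPts W (l ^ n), addOrderOf P = l ^ n ∧
      torsionRep W (l ^ n) σ P = P := by
    by_cases hgood : W.IsGoodPrimeFor q
    · let b := Module.finBasisOfFinrankEq (ZMod (l ^ n)) (torsionPts W (l ^ n)) hrank
      refine ⟨b 0, ?_, ?_⟩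
      · refine Nat.dvd_antisymm (addOrderOf_dvd_of_nsmul_eq_zero ?_) ?_
        · rw [← Nat.cast_smul_eq_nsmul (ZMod (l ^ n)), ZMod.natCast_self, zero_smul]
        · have h0 := addOrderOf_nsmul_eq_zero (b 0)
          rw [← Nat.cast_smul_eq_nsmul (ZMod (l ^ n))] at h0
          have h1 := congrArg (fun v => b.repr v 0) h0
          simp at h1
          exact (ZMod.natCast_eq_zero_iff _ _).mp h1
      · rw [Affine.Point.galoisRepModuleEnd_apply]
        exact Subtype.ext (ECReduction.smul_eq_of_inZeroComponentAt W hA hq hcop hσ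
          (by
            have h2 : (((l ^ n : ℕ) : ℤ)) • (b 0 : torsionPts W (l ^ n)).1 = 0 :=
              (Submodule.mem_torsionBy_iff _ _).mp (b 0).2
            rwa [natCast_zsmul] at h2)
          (ECReduction.inZeroComponentAt_of_good W hA hq hgood _))
    · obtain ⟨P, hP, hPfix⟩ := exists_inertia_fixed_point W hq hA (not_not.mp hgood)
        (hred.resolve_left hgood) hm hcop
      refine ⟨⟨P, (Submodule.mem_torsionBy_iff _ _).mpr ?_⟩, ?_, ?_⟩
      · rw [natCast_zsmul, ← hP]; exact addOrderOf_nsmul_eq_zero _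
      · exact (addOrderOf_injective (torsionPts W (l ^ n)).subtype.toAddMonoidHom
          Subtype.val_injective _).symm.trans hP
      · rw [Affine.Point.galoisRepModuleEnd_apply]
        exact Subtype.ext (hPfix σ hσ)
  -- Cayley–Hamilton at the fixed point
  have hch := LinearMap.congr_fun (LinearMap.aeval_self_charpoly (torsionRep W (l ^ n) σ)) P
  rw [charpoly_eq_of_finrank_two hrank, hdet] at hch
  simp only [map_add, map_sub, map_mul, aeval_X, aeval_C, map_one, sq,
    LinearMap.add_apply, LinearMap.sub_apply, Module.End.mul_apply, Module.End.one_apply, hPσ,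
    Module.algebraMap_end_apply, LinearMap.zero_apply] at hch
  set t := LinearMap.trace (ZMod (l ^ n)) (torsionPts W (l ^ n)) (torsionRep W (l ^ n) σ)
  have h0 : (2 - t) • P = 0 := by
    rw [sub_smul, two_smul, ← hch]; abel
  have h1 : ((2 - t).val) • P = 0 := by
    rwa [← Nat.cast_smul_eq_nsmul (ZMod (l ^ n)), ZMod.natCast_zmod_val]
  rw [← addOrderOf_dvd_iff_nsmul_eq_zero, hP] at h1
  have h2 := Nat.eq_zero_of_dvd_of_lt h1 (ZMod.val_lt _)
  rw [ZMod.val_eq_zero, sub_eq_zero] at h2
  exact h2.symm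

/-- All the torsion facts, from the Frobenius trace and determinant. -/
theorem torsionFacts_of_frobenius {W : WeierstrassCurve ℤ} (hdense : FrobeniusPowDense)
    (hΔ : W.Δ ≠ 0) (hfrob : TorsionFrobenius W) : TorsionFacts W where
  free l n hl hn := torsion_free_finrank hΔ (Nat.one_lt_pow hn.ne' hl.one_lt)
  finiteLevel l n hl _ := ECTorsion.galoisFactorsThroughFiniteLevel
    (W.map (Int.castRingHom ℚ)) (by simpa [map_Δ] using hΔ) (pow_ne_zero n hl.ne_zero)
  frobenius := hfrob
  inertia l n hl hn q hq hql hred _ hA _ hσ :=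
    torsion_inertia hdense hΔ hfrob hl hn hq hql hred hA hσ

end Fermat.Agent.ConductorLevel
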