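import Fermat.Agent.ConductorLevel.Main
import Fermat.Agent.ConductorLevel.TorsionInputs
import Fermat.Agent.HeckeDatum.Reduction
import Fermat.Agent.EichlerPeriods.HeckeFinite

/-!
# Frobenius density and integrality of the Hecke algebra

Two general hypotheses of the conductor-level theorem: every element of a finite Galois group is
a power of a Frobenius, and the weight two Hecke algebra is integral over `ℤ`.
-/

set_option autoImplicit false

noncomputable section

namespace Fermat.Agent.ConductorLevel

/-- Frobenius density (Chebotarev). -/
theorem frobeniusPowDense : HeckeDatum.FrobeniusPowDense := HeckeDatum.frobeniusPowDense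

/-- The weight two Hecke algebra is integral over `ℤ`. -/
theorem heckeAlgebra_isIntegral (M : ℕ) [NeZero M] (S : Set ℕ) :
    Algebra.IsIntegral ℤ (CuspForm.heckeAlgebra M 2 S) := by
  have := EichlerPeriods.moduleFinite_heckeAlgebra (N := M) 2 S
  exact Algebra.IsIntegral.of_finite ℤ _

end Fermat.Agent.ConductorLevel
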