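import Fermat.Prelude.Def_FLTPrelim_Modularity
import Fermat.Prelude.Def_CuspForm_HeckeAlgebra
import Fermat.Prelude.Thm_ModularFormClass_qCoeff_heckeT
import Fermat.Prelude.Thm_ModularFormClass_qCoeff_heckeU
import Fermat.Prelude.Thm_CongruenceSubgroup_one_mem_strictPeriods_Gamma0
import Fermat.Prelude.Thm_UpperHalfPlane_eq_of_forall_qCoeff_eq

/-!
A normalised eigenform (in the coefficient sense) is an eigenvector of every Hecke operator, hence
gives a ring homomorphism from the Hecke algebra to `ℂ`.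
-/

set_option autoImplicit false

noncomputable section

open CongruenceSubgroup Matrix.SpecialLinearGroup ModularFormClass
open scoped MatrixGroups

namespace Fermat.Agent.ConductorLevel

variable {N : ℕ} [NeZero N]

omit [NeZero N] in
theorem cuspForm_ext_of_qCoeff {k : ℤ} {f g : CuspForm (Gamma0 N) k}
    (h : ∀ n, qCoeff f n = qCoeff g n) : f = g := by
  have h1 := CongruenceSubgroup.one_mem_strictPeriods_Gamma0 N
  have : Fact (IsCusp OnePoint.infty ((Gamma0 N).map (mapGL ℝ))) :=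
    ⟨Subgroup.isCusp_of_mem_strictPeriods one_pos h1⟩
  exact DFunLike.coe_injective (UpperHalfPlane.eq_of_forall_qCoeff_eq
    (SlashInvariantFormClass.periodic_comp_ofComplex f h1) (CuspFormClass.holo f)
    (ModularFormClass.bdd_at_infty f)
    (SlashInvariantFormClass.periodic_comp_ofComplex g h1) (CuspFormClass.holo g)
    (ModularFormClass.bdd_at_infty g) h)

omit [NeZero N] in
theorem qCoeff_zero_eq_zero {k : ℤ} (f : CuspForm (Gamma0 N) k) : qCoeff f 0 = 0 := by
  have h1 := CongruenceSubgroup.one_mem_strictPeriods_Gamma0 N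
  have : Fact (IsCusp OnePoint.infty ((Gamma0 N).map (mapGL ℝ))) :=
    ⟨Subgroup.isCusp_of_mem_strictPeriods one_pos h1⟩
  rw [qCoeff, UpperHalfPlane.qExpansion_coeff]
  simp [UpperHalfPlane.IsZeroAtImInfty.cuspFunction_apply_zero
    (CuspFormClass.zero_at_infty f) one_pos]

omit [NeZero N] in
theorem qCoeff_smulC {k : ℤ} (c : ℂ) (f : CuspForm (Gamma0 N) k) (n : ℕ) :
    qCoeff ⇑(c • f) n = c * qCoeff f n := by
  rw [qCoeff, qCoeff, FunLike.coe_smul,
    UpperHalfPlane.qExpansion_smul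
      (ModularFormClass.analyticAt_cuspFunction_zero f one_pos
        (CongruenceSubgroup.one_mem_strictPeriods_Gamma0 N))]
  simp

/-- The split `n = p ^ j * m` with `p ∤ m`. -/
theorem exists_pow_mul_not_dvd {p : ℕ} (hp : p.Prime) {n : ℕ} (hn : n ≠ 0) :
    ∃ j m : ℕ, ¬ p ∣ m ∧ n = p ^ j * m :=
  Nat.exists_eq_pow_mul_and_not_dvd hn p hp.ne_one

omit [NeZero N] in
/-- A normalised eigenform is an eigenvector of `T_p` with eigenvalue its `p`-th coefficient. -/
theorem heckeTLin_eq_smul {g : CuspForm (Gamma0 N) 2} (hg : g.IsNormalizedEigenform) {p : ℕ}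
    (hp : p.Prime) (hpN : ¬ p ∣ N) :
    CuspForm.heckeTLin 2 hp hpN g = qCoeff g p • g := by
  refine cuspForm_ext_of_qCoeff fun n => ?_
  rw [qCoeff_smulC, CuspForm.coe_heckeTLin_apply, ModularFormClass.qCoeff_heckeT g
    (CongruenceSubgroup.one_mem_strictPeriods_Gamma0 N) hp.ne_zero, ModularForm.coeffHeckeT_apply,
    show (2 : ℤ) - 1 = 1 from rfl, zpow_one]
  rcases eq_or_ne n 0 with rfl | hn
  · simp [qCoeff_zero_eq_zero]
  obtain ⟨j, m, hm, rfl⟩ := exists_pow_mul_not_dvd hp hn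
  have hcop : ∀ i, (p ^ i).Coprime m := fun i =>
    ((hp.coprime_iff_not_dvd.mpr hm)).pow_left i
  have hmul : ∀ i, qCoeff g (p ^ i * m) = qCoeff g (p ^ i) * qCoeff g m := fun i =>
    hg.qCoeff_mul_of_coprime _ _ (hcop i)
  rw [show p ^ j * m * p = p ^ (j + 1) * m by ring, hmul, hmul]
  rcases j with _ | j
  · rw [pow_zero, one_mul, if_neg hm, add_zero, zero_add, pow_one, hg.qCoeff_one, one_mul]
  · rw [if_pos ((dvd_pow_self p j.succ_ne_zero).mul_right m),
      show p ^ (j + 1) * m / p = p ^ j * m by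
        rw [pow_succ', mul_assoc, Nat.mul_div_cancel_left _ hp.pos],
      hmul, hg.qCoeff_prime_pow_of_not_dvd p j hp hpN]
    ring

/-- A normalised eigenform is an eigenvector of `U_p` with eigenvalue its `p`-th coefficient. -/
theorem heckeULin_eq_smul {g : CuspForm (Gamma0 N) 2} (hg : g.IsNormalizedEigenform) {p : ℕ}
    (hp : p.Prime) (hpN : p ∣ N) :
    CuspForm.heckeULin 2 hpN g = qCoeff g p • g := by
  refine cuspForm_ext_of_qCoeff fun n => ?_
  rw [qCoeff_smulC, CuspForm.coe_heckeULin_apply, ModularFormClass.qCoeff_heckeU g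
    (CongruenceSubgroup.one_mem_strictPeriods_Gamma0 N) hp.ne_zero, ModularForm.coeffHeckeU_apply]
  rcases eq_or_ne n 0 with rfl | hn
  · simp [qCoeff_zero_eq_zero]
  obtain ⟨j, m, hm, rfl⟩ := exists_pow_mul_not_dvd hp hn
  have hmul : ∀ i, qCoeff g (p ^ i * m) = qCoeff g (p ^ i) * qCoeff g m := fun i =>
    hg.qCoeff_mul_of_coprime _ _ ((hp.coprime_iff_not_dvd.mpr hm).pow_left i)
  rw [show p ^ j * m * p = p ^ (j + 1) * m by ring, hmul, hmul]
  rcases j with _ | j
  · rw [pow_zero, zero_add, pow_one, hg.qCoeff_one, one_mul]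
  · rw [hg.qCoeff_prime_pow_of_dvd p j hp hpN]
    ring

variable (g : CuspForm (Gamma0 N) 2) (S : Set ℕ)

/-- A normalised eigenform is an eigenvector of the whole Hecke algebra. -/
theorem exists_eigenvalue (hg : g.IsNormalizedEigenform)
    {T : Module.End ℂ (CuspForm (Gamma0 N) 2)} (hT : T ∈ CuspForm.heckeAlgebra N 2 S) :
    ∃ c : ℂ, T g = c • g := by
  refine Algebra.adjoin_induction (p := fun T _ => ∃ c : ℂ, T g = c • g) ?_ ?_ ?_ ?_ hT
  · rintro T (⟨ℓ, hℓ, hℓN, -, rfl⟩ | ⟨q, hqN, hq, -, rfl⟩)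
    · exact ⟨_, heckeTLin_eq_smul hg hℓ hℓN⟩
    · exact ⟨_, heckeULin_eq_smul hg hq hqN⟩
  · intro z
    exact ⟨(z : ℂ), by rw [Module.algebraMap_end_apply, ← Int.cast_smul_eq_zsmul ℂ z g]⟩
  · rintro A B - - ⟨a, ha⟩ ⟨b, hb⟩
    exact ⟨a + b, by rw [LinearMap.add_apply, ha, hb, add_smul]⟩
  · rintro A B - - ⟨a, ha⟩ ⟨b, hb⟩
    exact ⟨b * a, by rw [Module.End.mul_apply, hb, map_smul, ha, smul_smul]⟩

variable (hg : g.IsNormalizedEigenform)

/-- The eigenvalue character of the Hecke algebra on a normalised eigenform. -/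
def eigenChar : CuspForm.heckeAlgebra N 2 S →+* ℂ where
  toFun T := qCoeff ⇑((T : Module.End ℂ (CuspForm (Gamma0 N) 2)) g) 1
  map_one' := by simp [hg.qCoeff_one]
  map_mul' A B := by
    obtain ⟨a, ha⟩ := exists_eigenvalue g S hg A.2
    obtain ⟨b, hb⟩ := exists_eigenvalue g S hg B.2
    rw [MulMemClass.coe_mul, Module.End.mul_apply, hb, map_smul, ha, smul_smul, qCoeff_smulC,
      qCoeff_smulC, qCoeff_smulC, hg.qCoeff_one]
    ring
  map_zero' := by
    rw [ZeroMemClass.coe_zero, LinearMap.zero_apply, ← zero_smul ℂ g, qCoeff_smulC, zero_mul]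
  map_add' A B := by
    obtain ⟨a, ha⟩ := exists_eigenvalue g S hg A.2
    obtain ⟨b, hb⟩ := exists_eigenvalue g S hg B.2
    rw [AddMemClass.coe_add, LinearMap.add_apply, ha, hb, ← add_smul, qCoeff_smulC,
      qCoeff_smulC, qCoeff_smulC, add_mul]

/-- The character of an eigenform sends `T_ℓ` to its `ℓ`-th coefficient. -/
theorem eigenChar_T {ℓ : ℕ} (hℓ : ℓ.Prime) (hℓN : ¬ ℓ ∣ N) (hℓS : ℓ ∉ S) :
    eigenChar g S hg (CuspForm.heckeAlgebra.T hℓ hℓN hℓS) = qCoeff g ℓ := by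
  change qCoeff ⇑(CuspForm.heckeTLin 2 hℓ hℓN g) 1 = qCoeff g ℓ
  rw [heckeTLin_eq_smul hg hℓ hℓN, qCoeff_smulC, hg.qCoeff_one, mul_one]

/-- If `S` contains the primes of the level, the range of the character is generated by the
eigenvalues at the primes outside `S`. -/
theorem eigenChar_range_le (A : Subring ℂ) (hS : ∀ q : ℕ, q.Prime → q ∣ N → q ∈ S)
    (hA : ∀ ℓ : ℕ, ℓ.Prime → ¬ ℓ ∣ N → ℓ ∉ S → qCoeff g ℓ ∈ A) :
    (eigenChar g S hg).range ≤ A := by
  rintro x ⟨⟨T, hT⟩, rfl⟩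
  induction hT using Algebra.adjoin_induction with
  | mem T hT =>
    rcases hT with ⟨ℓ, hℓ, hℓN, hℓS, rfl⟩ | ⟨q, hqN, hq, hqS, rfl⟩
    · exact (eigenChar_T g S hg hℓ hℓN hℓS).symm ▸ hA ℓ hℓ hℓN hℓS
    · exact absurd (hS q hq hqN) hqS
  | algebraMap z =>
    have h : (z : CuspForm.heckeAlgebra N 2 S) = ⟨algebraMap ℤ _ z, algebraMap_mem _ z⟩ :=
      Subtype.ext (by simp)
    exact h ▸ (map_intCast (eigenChar g S hg) z).symm ▸ intCast_mem A z
  | add a b ha hb iha ihb =>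
    have := A.add_mem iha ihb
    rw [← map_add] at this
    exact this
  | mul a b ha hb iha ihb =>
    have := A.mul_mem iha ihb
    rw [← map_mul] at this
    exact this

/-- The good coefficients of an eigenform are integral when the Hecke algebra is. -/
theorem isIntegral_qCoeff [Algebra.IsIntegral ℤ (CuspForm.heckeAlgebra N 2 S)] {ℓ : ℕ}
    (hℓ : ℓ.Prime) (hℓN : ¬ ℓ ∣ N) (hℓS : ℓ ∉ S) (hg : g.IsNormalizedEigenform) :
    IsIntegral ℤ (qCoeff g ℓ) := by
  rw [← eigenChar_T g S hg hℓ hℓN hℓS]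
  exact map_isIntegral_int (eigenChar g S hg)
    (Algebra.IsIntegral.isIntegral (CuspForm.heckeAlgebra.T hℓ hℓN hℓS))

end Fermat.Agent.ConductorLevel
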