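import Fermat.Prelude.Def_FLTPrelim_Modularity
import Fermat.Prelude.Def_ModularForm_HeckeOperatorForms
import Fermat.Prelude.Thm_ModularFormClass_qCoeff_heckeT
import Fermat.Prelude.Thm_ModularFormClass_qCoeff_heckeU
import Fermat.Prelude.Thm_CongruenceSubgroup_one_mem_strictPeriods_Gamma0

/-!
Raising the level of a normalised weight two eigenform by a prime not dividing its level:
`g(z) - β g(qz)`, where `β` is a root of `X² - a_q X + q`.
-/

set_option autoImplicit false

noncomputable section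

open CongruenceSubgroup Matrix.SpecialLinearGroup ModularFormClass
open scoped MatrixGroups

namespace Fermat.Agent.ConductorLevel

variable {M R : ℕ}

/-- `Γ₀` is antitone for divisibility of levels. -/
theorem gamma0_le_of_dvd (h : M ∣ R) : Gamma0 R ≤ Gamma0 M := by
  intro A hA
  rw [Gamma0_mem] at hA ⊢
  have := congrArg (ZMod.castHom h (ZMod M)) hA
  simpa using this

/-- A cusp form of level `M` viewed in a multiple `R` of `M`. -/
def liftLevel [NeZero M] [NeZero R] {k : ℤ} (h : M ∣ R) (g : CuspForm (Gamma0 M) k) :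
    CuspForm (Gamma0 R) k where
  toFun := ⇑g
  slash_action_eq' γ hγ := by
    obtain ⟨A, hA, rfl⟩ := Subgroup.mem_map.mp hγ
    exact SlashInvariantFormClass.slash_action_eq g _
      (Subgroup.mem_map.mpr ⟨A, gamma0_le_of_dvd h hA, rfl⟩)
  holo' := CuspFormClass.holo g
  zero_at_cusps' hc := CuspFormClass.zero_at_cusps g
    ((Subgroup.IsArithmetic.isCusp_iff_isCusp_SL2Z _).mpr
      ((Subgroup.IsArithmetic.isCusp_iff_isCusp_SL2Z _).mp hc))

@[simp] theorem coe_liftLevel [NeZero M] [NeZero R] {k : ℤ} (h : M ∣ R)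
    (g : CuspForm (Gamma0 M) k) : ⇑(liftLevel h g) = ⇑g := rfl

theorem qCoeff_sub' [NeZero R] {k : ℤ} (f g : CuspForm (Gamma0 R) k) (n : ℕ) :
    qCoeff ⇑(f - g) n = qCoeff f n - qCoeff g n := by
  rw [qCoeff, qCoeff, qCoeff, FunLike.coe_sub,
    ModularForm.qExpansion_sub (Γ := (Gamma0 R).map (mapGL ℝ)) one_pos
      (CongruenceSubgroup.one_mem_strictPeriods_Gamma0 R) f g]
  simp

theorem qCoeff_smul' [NeZero R] {k : ℤ} (c : ℂ) (f : CuspForm (Gamma0 R) k) (n : ℕ) :
    qCoeff ⇑(c • f) n = c * qCoeff f n := by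
  rw [qCoeff, qCoeff, FunLike.coe_smul,
    UpperHalfPlane.qExpansion_smul
      (ModularFormClass.analyticAt_cuspFunction_zero f one_pos
        (CongruenceSubgroup.one_mem_strictPeriods_Gamma0 R))]
  simp

/-- `g(z) - β g(qz)` as a form of level `Mq`, for `q` prime not dividing `M`. -/
def stabilize [NeZero M] {q : ℕ} (hq : q.Prime) (hqM : ¬ q ∣ M) (β : ℂ)
    (g : CuspForm (Gamma0 M) 2) : CuspForm (Gamma0 (M * q)) 2 :=
  haveI : NeZero (M * q) := ⟨mul_ne_zero (NeZero.ne M) hq.ne_zero⟩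
  liftLevel (dvd_mul_right M q) g - (β / q) •
    (liftLevel (dvd_mul_right M q) (CuspForm.heckeTLin 2 hq hqM g) -
      CuspForm.heckeULin 2 (dvd_mul_left q M) (liftLevel (dvd_mul_right M q) g))

theorem qCoeff_stabilize [NeZero M] {q : ℕ} (hq : q.Prime) (hqM : ¬ q ∣ M) (β : ℂ)
    (g : CuspForm (Gamma0 M) 2) (n : ℕ) :
    qCoeff (stabilize hq hqM β g) n =
      qCoeff g n - if q ∣ n then β * qCoeff g (n / q) else 0 := by
  have : NeZero (M * q) := ⟨mul_ne_zero (NeZero.ne M) hq.ne_zero⟩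
  have h1 := CongruenceSubgroup.one_mem_strictPeriods_Gamma0 M
  have hq0 : (q : ℂ) ≠ 0 := Nat.cast_ne_zero.mpr hq.ne_zero
  rw [stabilize, qCoeff_sub', qCoeff_smul', qCoeff_sub']
  simp only [coe_liftLevel, CuspForm.coe_heckeTLin_apply, CuspForm.coe_heckeULin_apply]
  rw [ModularFormClass.qCoeff_heckeT g h1 hq.ne_zero,
    ModularFormClass.qCoeff_heckeU g h1 hq.ne_zero, ModularForm.coeffHeckeT_apply,
    ModularForm.coeffHeckeU_apply]
  split_ifs with h
  · rw [show (2 : ℤ) - 1 = 1 from rfl, zpow_one]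
    field_simp
    ring
  · simp

theorem exists_eigenform_level_mul [NeZero M] {g : CuspForm (Gamma0 M) 2}
    (hg : g.IsNormalizedEigenform) {q : ℕ} (hq : q.Prime) (hqM : ¬ q ∣ M) :
    ∃ h : CuspForm (Gamma0 (M * q)) 2, h.IsNormalizedEigenform ∧
      ∀ ℓ : ℕ, ℓ.Prime → ℓ ≠ q → qCoeff h ℓ = qCoeff g ℓ := by
  obtain ⟨s, hs⟩ := IsAlgClosed.exists_pow_nat_eq (qCoeff g q ^ 2 - 4 * (q : ℂ)) two_pos
  set β : ℂ := (qCoeff g q + s) / 2 with hβdef
  have hβ : β * (qCoeff g q - β) = q := by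
    rw [hβdef]; linear_combination -hs / 4
  set a : ℕ → ℂ := qCoeff g with ha
  have hb : ∀ n, qCoeff (stabilize hq hqM β g) n = a n - if q ∣ n then β * a (n / q) else 0 :=
    qCoeff_stabilize hq hqM β g
  have hnd : ∀ n, ¬ q ∣ n → qCoeff (stabilize hq hqM β g) n = a n := fun n hn => by
    rw [hb, if_neg hn, sub_zero]
  have hqp : ∀ r, qCoeff (stabilize hq hqM β g) (q ^ (r + 1)) = a (q ^ (r + 1)) - β * a (q ^ r) :=
    fun r => by
      rw [hb, if_pos (dvd_pow_self q r.succ_ne_zero), pow_succ, Nat.mul_div_cancel _ hq.pos]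
  have hne : ∀ p : ℕ, p.Prime → p ≠ q → ∀ j, ¬ q ∣ p ^ j := fun p hp hpq j hd =>
    hpq ((Nat.prime_dvd_prime_iff_eq hq hp).mp (hq.dvd_of_dvd_pow hd)).symm
  refine ⟨stabilize hq hqM β g, ⟨?_, ?_, ?_, ?_⟩, fun ℓ hℓ hℓq => hnd ℓ fun h => hℓq
    ((Nat.prime_dvd_prime_iff_eq hq hℓ).mp h).symm⟩
  · rw [hnd 1 hq.not_dvd_one]; exact hg.qCoeff_one
  · have key : ∀ m n : ℕ, m.Coprime n → q ∣ m → qCoeff (stabilize hq hqM β g) (m * n) =
        qCoeff (stabilize hq hqM β g) m * qCoeff (stabilize hq hqM β g) n := by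
      intro m n hmn hm
      have hn : ¬ q ∣ n := fun hn => hq.not_dvd_one (hmn ▸ Nat.dvd_gcd hm hn)
      obtain ⟨m', rfl⟩ := hm
      have hm'n : m'.Coprime n := hmn.coprime_dvd_left (dvd_mul_left m' q)
      have ha1 : a (q * m' * n) = a (q * m') * a n := hg.qCoeff_mul_of_coprime _ _ hmn
      have ha2 : a (m' * n) = a m' * a n := hg.qCoeff_mul_of_coprime _ _ hm'n
      rw [hb (q * m' * n), hb (q * m'), hnd n hn, if_pos (dvd_mul_right q m'),
        if_pos ((dvd_mul_right q m').mul_right n), mul_assoc, Nat.mul_div_cancel_left _ hq.pos,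
        Nat.mul_div_cancel_left _ hq.pos, ← mul_assoc, ha1, ha2]
      ring
    intro m n hmn
    by_cases hm : q ∣ m
    · exact key m n hmn hm
    by_cases hn : q ∣ n
    · rw [mul_comm m n, key n m hmn.symm hn, mul_comm]
    · rw [hnd m hm, hnd n hn, hnd (m * n) fun h => (hq.dvd_mul.mp h).elim hm hn]
      exact hg.qCoeff_mul_of_coprime m n hmn
  · intro p r hp hpMq
    have hpq : p ≠ q := fun h => hpMq (h ▸ dvd_mul_left q M)
    have hpM : ¬ p ∣ M := fun h => hpMq (h.mul_right q)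
    rw [hnd _ (hne p hp hpq _), hnd _ (hne p hp hpq _), hnd _ (hne p hp hpq _),
      hnd p (by simpa using hne p hp hpq 1)]
    exact hg.qCoeff_prime_pow_of_not_dvd p r hp hpM
  · intro p r hp hpMq
    by_cases hpq : p = q
    · subst hpq
      have hb1 : qCoeff (stabilize hq hqM β g) p = a p - β := by
        have := hqp 0
        simp only [zero_add, pow_one, pow_zero] at this
        rw [this, show a 1 = 1 from hg.qCoeff_one, mul_one]
      have hrec : a (p ^ (r + 2)) = a p * a (p ^ (r + 1)) - (p : ℂ) * a (p ^ r) :=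
        hg.qCoeff_prime_pow_of_not_dvd p r hp hqM
      rw [show r + 2 = r + 1 + 1 from rfl, hqp, hqp, hb1, show r + 1 + 1 = r + 2 from rfl, hrec]
      linear_combination a (p ^ r) * hβ
    · have hpM : p ∣ M := (hp.dvd_mul.mp hpMq).resolve_right
        fun h => hpq ((Nat.prime_dvd_prime_iff_eq hp hq).mp h)
      rw [hnd _ (hne p hp hpq _), hnd _ (hne p hp hpq _),
        hnd p (by simpa using hne p hp hpq 1)]
      exact hg.qCoeff_prime_pow_of_dvd p r hp hpM

/-- An eigenform gives one at every squarefree multiple of its level, with the same eigenvalues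
away from that level. -/
theorem exists_eigenform_of_squarefree_multiple (R : ℕ) (hR : Squarefree R) :
    ∀ d M : ℕ, M * d = R → ∀ g : CuspForm (Gamma0 M) 2, g.IsNormalizedEigenform →
      ∃ h : CuspForm (Gamma0 R) 2, h.IsNormalizedEigenform ∧
        ∀ ℓ : ℕ, ℓ.Prime → ¬ ℓ ∣ R → qCoeff h ℓ = qCoeff g ℓ := by
  intro d
  induction d using Nat.strong_induction_on with
  | _ d ih =>
    intro M hMd g hg
    rcases eq_or_ne d 1 with rfl | hd
    · rw [mul_one] at hMd
      subst hMd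
      exact ⟨g, hg, fun _ _ _ => rfl⟩
    · obtain ⟨q, hq, e, rfl⟩ := Nat.exists_prime_and_dvd hd
      have : NeZero M := ⟨fun h => hR.ne_zero (by rw [← hMd, h, zero_mul])⟩
      have hqM : ¬ q ∣ M := by
        rintro ⟨c, rfl⟩
        exact hq.not_isUnit (hR q ⟨c * e, by rw [← hMd]; ring⟩)
      obtain ⟨g', hg', hcoeff⟩ := exists_eigenform_level_mul hg hq hqM
      have he : 0 < e := Nat.pos_of_ne_zero fun h => hR.ne_zero (by rw [← hMd, h, mul_zero, mul_zero])
      obtain ⟨h, hh, hh'⟩ := ih e (lt_mul_of_one_lt_left he hq.one_lt) (M * q)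
        (by rw [mul_assoc, hMd]) g' hg'
      refine ⟨h, hh, fun ℓ hℓ hℓR => ?_⟩
      rw [hh' ℓ hℓ hℓR, hcoeff ℓ hℓ]
      rintro rfl
      exact hℓR ⟨M * e, by rw [← hMd]; ring⟩

end Fermat.Agent.ConductorLevel
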