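import Mathlib.NumberTheory.Padics.Hensel
import Mathlib.RingTheory.Localization.Integral
import Mathlib.FieldTheory.Minpoly.IsIntegrallyClosed
import Mathlib.FieldTheory.Perfect
import Mathlib.Analysis.Complex.Basic
import Mathlib.RingTheory.Polynomial.GaussLemma
import Mathlib.RingTheory.Polynomial.RationalRoot
import Mathlib.RingTheory.Int.Basic
import Mathlib.Algebra.GCDMonoid.IntegrallyClosed

/-!
An algebraic integer generates a ring which maps to `ℤ_[λ]` for infinitely many primes `λ`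
(Schur's lemma and Hensel's lemma).
-/

set_option autoImplicit false

noncomputable section

open Polynomial

namespace Fermat.Agent.ConductorLevel

/-- Schur: a nonconstant integer polynomial has a root modulo a prime outside any finite set. -/
theorem exists_prime_dvd_eval {f : ℤ[X]} (hf : 0 < f.natDegree) (s : Finset ℕ) :
    ∃ p : ℕ, p.Prime ∧ p ∉ s ∧ ∃ r : ℤ, (p : ℤ) ∣ f.eval r := by
  obtain ⟨p₀, hp₀s, hp₀⟩ := Nat.exists_infinite_primes (s.sup id + 1)
  have hp₀' : p₀ ∉ s := fun h => by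
    have := Finset.le_sup (f := id) h
    simp only [id_eq] at this
    omega
  by_cases h0 : f.coeff 0 = 0
  · exact ⟨p₀, hp₀, hp₀', 0, by rw [← coeff_zero_eq_eval_zero, h0]; exact dvd_zero _⟩
  set a := f.coeff 0 with ha
  set P : ℤ := ∏ p ∈ s.filter Nat.Prime, (p : ℤ) with hP
  have hP0 : P ≠ 0 := Finset.prod_ne_zero_iff.mpr fun p hp =>
    Int.natCast_ne_zero.mpr (Finset.mem_filter.mp hp).2.ne_zero
  obtain ⟨h, hh⟩ : (X : ℤ[X]) ∣ f - C a := by
    rw [X_dvd_iff]; simp [ha]
  have hfin : {t : ℤ | f.eval (a * P * t) = a ∨ f.eval (a * P * t) = -a}.Finite := by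
    have hbad : ∀ b : ℤ, {t : ℤ | f.eval (a * P * t) = b}.Finite := fun b => by
      have hne : f.comp (C (a * P) * X) - C b ≠ 0 := fun hc => by
        have := congrArg natDegree (sub_eq_zero.mp hc)
        rw [natDegree_comp, natDegree_C_mul_X _ (mul_ne_zero h0 hP0), natDegree_C] at this
        omega
      refine (Polynomial.finite_setOfPred_isRoot hne).subset fun t ht => ?_
      simp only [Set.mem_ofPred_eq] at ht
      simp [IsRoot, eval_comp, ht]
    exact ((hbad a).union (hbad (-a))).subset fun t ht => ht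
  obtain ⟨t, ht⟩ := hfin.exists_notMem
  simp only [Set.mem_ofPred_eq, not_or] at ht
  have hev : f.eval (a * P * t) = a * (1 + P * (t * h.eval (a * P * t))) := by
    have := congrArg (eval (a * P * t)) hh
    simp only [eval_sub, eval_C, eval_mul, eval_X] at this
    linear_combination this
  set u : ℤ := 1 + P * (t * h.eval (a * P * t)) with hu
  have hu1 : u.natAbs ≠ 1 := fun h1 => by
    rcases Int.natAbs_eq u with h2 | h2 <;> rw [h1] at h2
    · exact ht.1 (by rw [hev, h2]; simp)
    · exact ht.2 (by rw [hev, h2]; simp)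
  obtain ⟨p, hp, hpu⟩ := Nat.exists_prime_and_dvd hu1
  refine ⟨p, hp, fun hps => ?_, a * P * t, ?_⟩
  · have h1 : (p : ℤ) ∣ P := Finset.dvd_prod_of_mem _ (Finset.mem_filter.mpr ⟨hps, hp⟩)
    have h2 : (p : ℤ) ∣ 1 := by
      have h3 := (Int.natCast_dvd.mpr hpu)
      rw [hu] at h3
      exact (dvd_add_left (h1.mul_right _)).mp h3
    exact hp.not_dvd_one (Int.natCast_dvd_natCast.mp (by exact_mod_cast h2))
  · rw [hev]; exact (Int.natCast_dvd.mpr hpu).mul_left a

/-- A separable integer polynomial has a simple root modulo some prime outside any finite set. -/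
theorem exists_prime_simple_root {f : ℤ[X]} (hf : 0 < f.natDegree)
    (hsep : (f.map (algebraMap ℤ ℚ)).Separable) (s : Finset ℕ) :
    ∃ p : ℕ, p.Prime ∧ p ∉ s ∧ ∃ r : ℤ, (p : ℤ) ∣ f.eval r ∧ ¬ (p : ℤ) ∣ f.derivative.eval r := by
  obtain ⟨U, V, hUV⟩ := hsep
  obtain ⟨b, hb, hbU⟩ := IsLocalization.integerNormalization_spec (nonZeroDivisors ℤ) U
  obtain ⟨c, hc, hcV⟩ := IsLocalization.integerNormalization_spec (nonZeroDivisors ℤ) V
  set U' := IsLocalization.integerNormalization (nonZeroDivisors ℤ) U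
  set V' := IsLocalization.integerNormalization (nonZeroDivisors ℤ) V
  have key : C c * U' * f + C b * V' * f.derivative = C (b * c) := by
    apply Polynomial.map_injective (algebraMap ℤ ℚ) Int.cast_injective
    have hUV' := hUV
    rw [derivative_map] at hUV'
    simp only [Polynomial.map_add, Polynomial.map_mul, map_C, hbU, hcV, map_mul]
    simp only [zsmul_eq_mul, eq_intCast, map_intCast]
    linear_combination ((b : ℚ[X]) * c) * hUV'
  have hbc : b * c ≠ 0 := mul_ne_zero (nonZeroDivisors.ne_zero hb) (nonZeroDivisors.ne_zero hc)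
  obtain ⟨p, hp, hps, r, hr⟩ := exists_prime_dvd_eval hf (s ∪ (b * c).natAbs.divisors)
  rw [Finset.mem_union, not_or] at hps
  refine ⟨p, hp, hps.1, r, hr, fun hd => hps.2 ?_⟩
  rw [Nat.mem_divisors]
  refine ⟨Int.natCast_dvd.mp ?_, Int.natAbs_ne_zero.mpr hbc⟩
  have := congrArg (eval r) key
  simp only [eval_add, eval_mul, eval_C] at this
  rw [← this]
  exact dvd_add (hr.mul_left _) (hd.mul_left _)

/-- For an algebraic integer `a` and a finite set of primes to avoid, there is a prime `λ` and a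
ring homomorphism `ℤ[a] → ℤ_[λ]`. -/
theorem exists_ringHom_adjoin_padicInt {a : ℂ} (ha : IsIntegral ℤ a) (s : Finset ℕ) :
    ∃ (l : ℕ) (_ : Fact l.Prime), l ∉ s ∧
      Nonempty (Algebra.adjoin ℤ ({a} : Set ℂ) →+* ℤ_[l]) := by
  have hirr : Irreducible (minpoly ℤ a) := minpoly.irreducible ha
  have hsep : ((minpoly ℤ a).map (algebraMap ℤ ℚ)).Separable :=
    ((minpoly.monic ha).irreducible_iff_irreducible_map_fraction_map.mp hirr).separable
  obtain ⟨l, hl, hls, r, hr, hr'⟩ :=
    exists_prime_simple_root (minpoly.natDegree_pos ha) hsep s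
  have : Fact l.Prime := ⟨hl⟩
  have he : ∀ P : ℤ[X], P.aeval (r : ℤ_[l]) = ((P.eval r : ℤ) : ℤ_[l]) := fun P => by
    rw [← eq_intCast (algebraMap ℤ ℤ_[l]) r, Polynomial.aeval_algebraMap_apply_eq_algebraMap_eval]
    simp
  have hnorm : ‖(minpoly ℤ a).aeval (r : ℤ_[l])‖ <
      ‖(minpoly ℤ a).derivative.aeval (r : ℤ_[l])‖ ^ 2 := by
    have h1 : ‖(minpoly ℤ a).derivative.aeval (r : ℤ_[l])‖ = 1 := by
      rw [he]
      exact le_antisymm (PadicInt.norm_le_one _)
        (not_lt.mp fun h => hr' ((PadicInt.norm_int_lt_one_iff_dvd _).mp h))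
    rw [h1, one_pow, he]
    exact (PadicInt.norm_int_lt_one_iff_dvd _).mpr hr
  obtain ⟨z, hz, -⟩ := hensels_lemma hnorm
  refine ⟨l, ⟨hl⟩, hls, ⟨(AdjoinRoot.lift (algebraMap ℤ ℤ_[l]) z ?_).comp
    (minpoly.equivAdjoin ha).symm.toRingEquiv.toRingHom⟩⟩
  rw [← aeval_def]; exact hz

end Fermat.Agent.ConductorLevel
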