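import Fermat.Prelude.Def_FLTPrelim_Modularity
import Mathlib.Algebra.Field.ZMod

/-!
The trivial bound on the number of points of a Weierstrass cubic over a finite field.
-/

set_option autoImplicit false

noncomputable section

namespace Fermat.Agent.ConductorLevel

open WeierstrassCurve

theorem card_point_le {F : Type*} [Field F] [Finite F] (W : WeierstrassCurve F) :
    W.card ≤ 2 * Nat.card F + 1 := by
  classical
  let y₀ : F → F := fun x => if h : ∃ y, W.toAffine.Equation x y then h.choose else 0
  let code : W.toAffine.Point → Option (F × Bool) := fun P => match P with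
    | .zero => none
    | .some x y _ => some (x, decide (y = y₀ x))
  have hinj : Function.Injective code := by
    rintro (_ | ⟨x₁, y₁, h₁⟩) (_ | ⟨x₂, y₂, h₂⟩) h <;>
      simp only [code, Option.some.injEq, Prod.mk.injEq, reduceCtorEq, decide_eq_decide] at h
    · rfl
    · obtain ⟨rfl, h⟩ := h
      have hex : ∃ y, W.toAffine.Equation x₁ y := ⟨y₁, h₁.1⟩
      have h₀ : W.toAffine.Equation x₁ (y₀ x₁) := by
        simp only [y₀, dif_pos hex]; exact hex.choose_spec
      suffices y₁ = y₂ by subst this; rfl
      by_cases hy : y₁ = y₀ x₁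
      · rw [hy, h.mp hy]
      · rw [(Affine.Y_eq_of_X_eq h₁.1 h₀ rfl).resolve_left hy,
          (Affine.Y_eq_of_X_eq h₂.1 h₀ rfl).resolve_left (mt h.mpr hy)]
  calc W.card ≤ Nat.card (Option (F × Bool)) := Nat.card_le_card_of_injective _ hinj
    _ = 2 * Nat.card F + 1 := by
      rw [Finite.card_option, Nat.card_prod, Nat.card_eq_fintype_card (α := Bool), Fintype.card_bool,
        mul_comm]

/-- The trace of Frobenius of a prime field curve lies strictly between `±(q + 1)`. -/
theorem apOfModel_ne {q : ℕ} (hq : q.Prime) (W : WeierstrassCurve ℤ) :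
    W.apOfModel q ≠ (q : ℤ) + 1 ∧ W.apOfModel q ≠ -((q : ℤ) + 1) := by
  have : Fact q.Prime := ⟨hq⟩
  have h1 : 0 < (W.reductionMod q).card :=
    Nat.card_pos_iff.mpr ⟨⟨.zero⟩, inferInstance⟩
  have h2 := card_point_le (W.reductionMod q)
  rw [Nat.card_zmod] at h2
  rw [apOfModel, traceOfFrobenius, Nat.card_zmod]
  constructor <;> omega

end Fermat.Agent.ConductorLevel
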