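import Fermat.Agent.ConductorLevel.Compare
import Mathlib.LinearAlgebra.Dimension.Finrank
import Mathlib.LinearAlgebra.FiniteDimensional.Lemmas

/-!
A two dimensional representation with the traces of an irreducible odd representation in
characteristic different from two is irreducible, over any extension field.
-/

set_option autoImplicit false

noncomputable section

namespace Fermat.Agent.ConductorLevel

variable {F : Type*} [Field F] {K : Type*} [Field K] {G : Type*} [Monoid G]
  {V : Type*} [AddCommGroup V] [Module F V] [Module.Finite F V]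
  {V' : Type*} [AddCommGroup V'] [Module K V'] [Module.Finite K V']

omit [Module.Finite F V] in
theorem exists_basis_of_ne_zero (hV : Module.finrank F V = 2) {v : V} (hv : v ≠ 0) :
    ∃ b : Module.Basis (Fin 2) F V, b 0 = v := by
  obtain ⟨w, hw⟩ := exists_linearIndependent_pair_of_one_lt_finrank (R := F) (by omega : 1 < Module.finrank F V) hv
  exact ⟨basisOfLinearIndependentOfCardEqFinrank hw (by simp [hV]), by simp⟩

/-- A plane without stable lines has no proper stable subspace. -/
theorem eq_bot_or_top_of_no_stable_line (hV : Module.finrank F V = 2) (r : G →* Module.End F V)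
    (h : ∀ v : V, v ≠ 0 → ∃ g, ∀ a : F, r g v ≠ a • v) (W : Submodule F V)
    (hW : ∀ g, ∀ x ∈ W, r g x ∈ W) : W = ⊥ ∨ W = ⊤ := by
  by_contra hc
  rw [not_or] at hc
  obtain ⟨v, hvW, hv⟩ := Submodule.exists_mem_ne_zero_of_ne_bot hc.1
  obtain ⟨g, hg⟩ := h v hv
  have h1 : Module.finrank F W < 2 := hV ▸ Submodule.finrank_lt hc.2
  have h0 : 0 < Module.finrank F W :=
    Module.finrank_pos_iff_exists_ne_zero.mpr ⟨⟨v, hvW⟩, by simpa [Subtype.ext_iff] using hv⟩
  obtain ⟨a, ha⟩ := exists_smul_eq_of_finrank_eq_one (show Module.finrank F W = 1 by omega)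
    (x := ⟨v, hvW⟩) (by simpa [Subtype.ext_iff] using hv) ⟨r g v, hW g v hvW⟩
  exact hg a (by simpa [Subtype.ext_iff] using ha.symm)

omit [Module.Finite F V] in
/-- In a basis starting with an eigenvector of all `r g`, the diagonal coefficient is
multiplicative. -/
theorem exists_eigen_char (hV : Module.finrank F V = 2) (r : G →* Module.End F V) {v : V}
    (hv : v ≠ 0) (h : ∀ g, ∃ a : F, r g v = a • v) :
    ∃ a b : G → F, (∀ g h, a (g * h) = a g * a h) ∧ (∀ g, r g v = a g • v) ∧
      (∀ g h, b (g * h) = b g * b h) ∧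
      (∀ g, LinearMap.trace F V (r g) = a g + b g) ∧ ∀ g, LinearMap.det (r g) = a g * b g := by
  classical
  obtain ⟨e, rfl⟩ := exists_basis_of_ne_zero hV hv
  have key : ∀ g, LinearMap.toMatrix e e (r g) 1 0 = 0 := fun g => by
    obtain ⟨a, ha⟩ := h g
    simp [LinearMap.toMatrix_apply, ha]
  have hrg : ∀ g, r g (e 0) = LinearMap.toMatrix e e (r g) 0 0 • e 0 := fun g => by
    obtain ⟨a, ha⟩ := h g
    simp [LinearMap.toMatrix_apply, ha]
  have hmul : ∀ g h, LinearMap.toMatrix e e (r (g * h)) =
      LinearMap.toMatrix e e (r g) * LinearMap.toMatrix e e (r h) := fun g h => by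
    rw [map_mul, LinearMap.toMatrix_mul]
  refine ⟨fun g => LinearMap.toMatrix e e (r g) 0 0, fun g => LinearMap.toMatrix e e (r g) 1 1,
    fun g h => ?_, hrg, fun g h => ?_, fun g => ?_, fun g => ?_⟩
  · dsimp only
    rw [hmul, Matrix.mul_apply, Fin.sum_univ_two, key h]
    ring
  · dsimp only
    rw [hmul, Matrix.mul_apply, Fin.sum_univ_two, key g]
    ring
  · rw [LinearMap.trace_eq_matrix_trace F e, Matrix.trace_fin_two]
  · rw [← LinearMap.det_toMatrix e, Matrix.det_fin_two, key]
    ring

omit [Module.Finite K V'] in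
/-- Irreducibility of an odd two dimensional representation passes to any representation with the
same traces over an extension field. -/
theorem no_stable_line_of_trace_eq (hV : Module.finrank F V = 2) (hV' : Module.finrank K V' = 2)
    (h2 : (2 : F) ≠ 0) (φ : F →+* K) (r : G →* Module.End F V) (r' : G →* Module.End K V')
    (hirr : ∀ v : V, v ≠ 0 → ∃ g, ∀ a : F, r g v ≠ a • v)
    {c : G} (hcc : c * c = 1) (hdet : LinearMap.det (r c) = -1)
    (htr : ∀ g, LinearMap.trace K V' (r' g) = φ (LinearMap.trace F V (r g))) :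
    ∀ v : V', v ≠ 0 → ∃ g, ∀ a : K, r' g v ≠ a • v := by
  classical
  intro v hv
  by_contra! hline
  obtain ⟨a, b, ha, hva, hb, hab, -⟩ := exists_eigen_char hV' r' hv hline
  -- the involution
  have hrcc : r c * r c = 1 := by rw [← map_mul, hcc, map_one]
  have hP := LinearMap.aeval_self_charpoly (r c)
  rw [charpoly_eq_of_finrank_two hV, hdet] at hP
  have htc : LinearMap.trace F V (r c) = 0 := by
    have h3 : LinearMap.trace F V (r c) • r c = 0 := by
      simp only [map_add, map_sub, map_mul, map_neg, map_one, Polynomial.aeval_X,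
        Polynomial.aeval_C, sq, hrcc] at hP
      rw [Algebra.smul_def]
      refine Eq.trans ?_ (neg_eq_zero.mpr hP)
      abel
    rcases smul_eq_zero.mp h3 with h | h
    · exact h
    · rw [h, map_zero]
  have hne : (φ 2 : K) ≠ 0 := fun h => h2 (φ.injective (by rw [h, map_zero]))
  -- the eigenvalues of `r' c`
  have hac : a c * a c = 1 := by
    rw [← ha, hcc]
    have h1 := hva 1
    rw [map_one, Module.End.one_apply] at h1
    exact (smul_left_injective K hv (by simpa using h1)).symm
  have habc : a c + b c = 0 := by rw [← hab, htr, htc, map_zero]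
  obtain ⟨ε, hε, hεc⟩ : ∃ ε : F, ε * ε = 1 ∧ φ ε = a c := by
    rcases mul_self_eq_one_iff.mp hac with h | h
    · exact ⟨1, by simp, by rw [map_one, h]⟩
    · exact ⟨-1, by simp, by rw [map_neg, map_one, h]⟩
  -- `r c` has an eigenvector for `ε`
  obtain ⟨u, hu, hcu⟩ : ∃ u : V, u ≠ 0 ∧ r c u = ε • u := by
    by_contra! hno
    have hall : ∀ w : V, r c w = (-ε) • w := fun w => by
      by_contra hw
      refine hno (r c w + ε • w) (fun h => hw ?_) ?_
      · rw [neg_smul]; exact eq_neg_of_add_eq_zero_left h
      · rw [map_add, map_smul, ← Module.End.mul_apply, hrcc, smul_add, smul_smul, hε, one_smul,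
          Module.End.one_apply, add_comm]
    have h4 : r c = (-ε) • LinearMap.id := LinearMap.ext fun w => by simp [hall w]
    have h5 : LinearMap.det (r c) = (-ε) ^ 2 := by
      rw [h4, LinearMap.det_smul, LinearMap.det_id, mul_one, hV]
    rw [hdet, neg_sq, sq, hε] at h5
    exact h2 (by linear_combination -h5)
  obtain ⟨u', hu', hcu'⟩ : ∃ u' : V, u' ≠ 0 ∧ r c u' = (-ε) • u' := by
    by_contra! hno
    have hall : ∀ w : V, r c w = ε • w := fun w => by
      by_contra hw
      refine hno (r c w - ε • w) (fun h => hw (sub_eq_zero.mp h)) ?_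
      rw [map_sub, map_smul, ← Module.End.mul_apply, hrcc, Module.End.one_apply, neg_smul,
        smul_sub, smul_smul, hε, one_smul, neg_sub]
    have h4 : r c = ε • LinearMap.id := LinearMap.ext fun w => by simp [hall w]
    have h5 : LinearMap.det (r c) = ε ^ 2 := by
      rw [h4, LinearMap.det_smul, LinearMap.det_id, mul_one, hV]
    rw [hdet, sq, hε] at h5
    exact h2 (by linear_combination -h5)
  have hli : LinearIndependent F ![u, u'] := by
    rw [LinearIndependent.pair_iff]
    intro s t hst
    have h6 := congrArg (r c) hst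
    rw [map_add, map_smul, map_smul, hcu, hcu', map_zero] at h6
    have h7 : (2 * s * ε) • u = 0 := by
      have h8 := congrArg (fun w => ε • w) hst
      simp only [smul_add, smul_smul, smul_zero] at h8 h6
      calc (2 * s * ε) • u = ((s * ε) • u + (t * -ε) • u') + ((ε * s) • u + (ε * t) • u') := by
            rw [mul_neg, neg_smul, mul_comm ε t, mul_comm ε s, add_add_add_comm, neg_add_cancel,
              add_zero, ← add_smul]
            congr 1; ring
        _ = 0 := by rw [h6, h8, add_zero]
    have hε0 : ε ≠ 0 := fun h => by simp [h] at hε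
    have hs : s = 0 := by simpa [h2, hε0, hu] using h7
    rw [hs, zero_smul, zero_add] at hst
    exact ⟨hs, (smul_eq_zero.mp hst).resolve_right hu'⟩
  let e := basisOfLinearIndependentOfCardEqFinrank hli (by simp [hV])
  have he0 : e 0 = u := by simp [e]
  have he1 : e 1 = u' := by simp [e]
  let M : G → Matrix (Fin 2) (Fin 2) F := fun g => LinearMap.toMatrix e e (r g)
  have hM : ∀ g h, M (g * h) = M g * M h := fun g h => by
    simp only [M, map_mul, LinearMap.toMatrix_mul]
  have hc0 : r c (e 0) = ε • e 0 := by rw [he0, hcu]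
  have hc1 : r c (e 1) = (-ε) • e 1 := by rw [he1, hcu']
  have hMc : M c = !![ε, 0; 0, -ε] := by
    ext i j
    fin_cases i <;> fin_cases j <;> simp [M, LinearMap.toMatrix_apply, hc0, hc1]
  have htrM : ∀ g, LinearMap.trace F V (r g) = M g 0 0 + M g 1 1 := fun g => by
    rw [LinearMap.trace_eq_matrix_trace F e, Matrix.trace_fin_two]
  have hkey : ∀ g, φ (M g 0 0) = a g := fun g => by
    have h9 := hab g
    rw [htr, htrM, map_add] at h9
    have h10 := hab (c * g)
    rw [htr, htrM, ha, hb, hM, hMc, eq_neg_of_add_eq_zero_right habc] at h10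
    simp [Matrix.mul_apply, Fin.sum_univ_two, map_add, map_mul, map_neg, hεc] at h10
    have h11 : a c ≠ 0 := fun h => by simp [h] at hac
    have h12 : φ 2 * a c * (φ (M g 0 0) - a g) = 0 := by
      rw [map_ofNat]
      linear_combination a c * h9 + h10
    exact sub_eq_zero.mp ((mul_eq_zero.mp h12).resolve_left (mul_ne_zero hne h11))
  have hzero : ∀ g h, M g 0 1 * M h 1 0 = 0 := fun g h => by
    have h13 := hkey (g * h)
    rw [ha, ← hkey, ← hkey, ← map_mul, hM, Matrix.mul_apply, Fin.sum_univ_two] at h13
    have h14 := φ.injective h13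
    linear_combination h14
  by_cases h10 : ∀ h, M h 1 0 = 0
  · obtain ⟨g, hg⟩ := hirr u hu
    refine hg (M g 0 0) ?_
    rw [← he0]
    refine e.repr.injective (Finsupp.ext fun i => ?_)
    have := h10 g
    simp only [M, LinearMap.toMatrix_apply] at this ⊢
    fin_cases i <;> simp [this]
  · push Not at h10
    obtain ⟨h, hh⟩ := h10
    obtain ⟨g, hg⟩ := hirr u' hu'
    refine hg (M g 1 1) ?_
    rw [← he1]
    refine e.repr.injective (Finsupp.ext fun i => ?_)
    have := (mul_eq_zero.mp (hzero g h)).resolve_right hh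
    simp only [M, LinearMap.toMatrix_apply] at this ⊢
    fin_cases i <;> simp [this]

end Fermat.Agent.ConductorLevel
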