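import Fermat.Agent.ConductorLevel.Inputs
import Fermat.Agent.ConductorLevel.Compare
import Fermat.Agent.ConductorLevel.ResidualIrred
import Mathlib.RingTheory.Filtration

/-!
Comparison of an adic Galois representation having the Frobenius traces of an elliptic curve with
the torsion of the curve.
-/

set_option autoImplicit false

noncomputable section

namespace Fermat.Agent.ConductorLevel

open Polynomial WeierstrassCurve Fermat.Agent.HeckeDatum
open scoped WeierstrassCurve.Affine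

local notation "Qbar" => AlgebraicClosure ℚ
local notation "Γℚ" => (AlgebraicClosure ℚ ≃ₐ[ℚ] AlgebraicClosure ℚ)

variable {O : Type} [CommRing O] [IsLocalRing O]

/-- `ρ` has the Frobenius polynomials of `W` outside the finite set `S`. -/
def MatchesCurve (W : WeierstrassCurve ℤ) (ρ : GaloisRepAdic O) (S : Finset ℕ) : Prop :=
  ∀ ℓ : ℕ, ℓ.Prime → ℓ ∉ S → W.IsGoodPrimeFor ℓ → ∀ A : ValuationSubring Qbar, A.LiesOverPrime ℓ →
    ∀ φ : Γℚ, A.IsFrobeniusAt φ ℓ →
      LinearMap.charpoly (ρ.ρ φ) = X ^ 2 - C ((W.apOfModel ℓ : ℤ) : O) * X + C (ℓ : O)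

variable {W : WeierstrassCurve ℤ}

/-- The primes to avoid. -/
def avoidSet (W : WeierstrassCurve ℤ) (S : Finset ℕ) (l : ℕ) : Finset ℕ :=
  S ∪ insert l W.Δ.natAbs.primeFactors

theorem not_mem_avoidSet (hΔ : W.Δ ≠ 0) {S : Finset ℕ} {l ℓ : ℕ} (hℓ : ℓ.Prime)
    (h : ℓ ∉ avoidSet W S l) : ℓ ∉ S ∧ ℓ ≠ l ∧ W.IsGoodPrimeFor ℓ := by
  simp only [avoidSet, Finset.mem_union, Finset.mem_insert, not_or] at h
  refine ⟨h.1, h.2.1, fun hd => h.2.2 ?_⟩
  exact Nat.mem_primeFactors.mpr ⟨hℓ, Int.natCast_dvd.mp hd, Int.natAbs_ne_zero.mpr hΔ⟩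

variable (T : TorsionFacts W) (hdense : FrobeniusPowDense) (hΔ : W.Δ ≠ 0)

include T in
theorem torsion_charpoly {l n : ℕ} (hl : l.Prime) (hn : 0 < n) {q : ℕ} (hq : q.Prime)
    (hql : q ≠ l) (hgood : W.IsGoodPrimeFor q) {A : ValuationSubring Qbar}
    (hA : A.LiesOverPrime q) {φ : Γℚ} (hφ : A.IsFrobeniusAt φ q) [Nontrivial (ZMod (l ^ n))]
    [Module.Free (ZMod (l ^ n)) (torsionPts W (l ^ n))]
    [Module.Finite (ZMod (l ^ n)) (torsionPts W (l ^ n))] :
    LinearMap.charpoly (torsionRep W (l ^ n) φ) =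
      X ^ 2 - C ((W.apOfModel q : ℤ) : ZMod (l ^ n)) * X + C (q : ZMod (l ^ n)) := by
  obtain ⟨h1, h2⟩ := T.frobenius l n hl hn q hq hql hgood A hA φ hφ
  rw [charpoly_eq_of_finrank_two (T.free l n hl hn).2, h1, h2]

include T hdense hΔ in
theorem exists_torsion_congr {ρ : GaloisRepAdic O} {S : Finset ℕ} (hρ : MatchesCurve W ρ S)
    {l n : ℕ} (hl : l.Prime) (hn : 0 < n) (σ : Γℚ) :
    ∃ x y : ℤ,
      LinearMap.trace (ZMod (l ^ n)) (torsionPts W (l ^ n)) (torsionRep W (l ^ n) σ) = x ∧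
      LinearMap.det (torsionRep W (l ^ n) σ) = y ∧
      LinearMap.trace O ρ.V (ρ.ρ σ) - (x : O) ∈ IsLocalRing.maximalIdeal O ^ n ∧
      LinearMap.det (ρ.ρ σ) - (y : O) ∈ IsLocalRing.maximalIdeal O ^ n := by
  have : Fact (1 < l ^ n) := ⟨Nat.one_lt_pow hn.ne' hl.one_lt⟩
  obtain ⟨hfree, hrank⟩ := T.free l n hl hn
  have : Module.Finite (ZMod (l ^ n)) (torsionPts W (l ^ n)) :=
    Module.finite_of_finrank_eq_succ hrank
  refine exists_trace_det_congr hdense ρ n hrank (T.finiteLevel l n hl hn) (avoidSet W S l)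
    W.apOfModel (fun ℓ hℓ h A hA φ hφ => ?_) (fun ℓ hℓ h A hA φ hφ => ?_) σ
  · obtain ⟨h1, -, h3⟩ := not_mem_avoidSet hΔ hℓ h
    exact hρ ℓ hℓ h1 h3 A hA φ hφ
  · obtain ⟨-, h2, h3⟩ := not_mem_avoidSet hΔ hℓ h
    exact torsion_charpoly T hl hn hℓ h2 h3 hA hφ

theorem intCast_sub_mem {l n : ℕ} (hlO : (l : O) ∈ IsLocalRing.maximalIdeal O) {x z : ℤ}
    (h : (x : ZMod (l ^ n)) = (z : ZMod (l ^ n))) :
    (x : O) - (z : O) ∈ IsLocalRing.maximalIdeal O ^ n := by
  obtain ⟨w, hw⟩ := (ZMod.intCast_eq_intCast_iff_dvd_sub z x _).mp h.symm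
  rw [← Int.cast_sub, hw]
  push_cast
  exact Ideal.mul_mem_right _ _ (Ideal.pow_mem_pow hlO n)

theorem eq_of_forall_sub_mem [IsNoetherianRing O] {a b : O}
    (h : ∀ n : ℕ, 0 < n → a - b ∈ IsLocalRing.maximalIdeal O ^ n) : a = b := by
  have hbot := Ideal.iInf_pow_eq_bot_of_isLocalRing (IsLocalRing.maximalIdeal O)
    (IsLocalRing.maximalIdeal.isMaximal O).ne_top
  rw [← sub_eq_zero, ← Ideal.mem_bot (R := O), ← hbot]
  refine Submodule.mem_iInf _ |>.mpr fun n => ?_
  rcases Nat.eq_zero_or_pos n with rfl | hn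
  · simp
  · exact h n hn

include T hdense hΔ in
theorem trace_det_eq_of_torsion [IsNoetherianRing O] {ρ : GaloisRepAdic O} {S : Finset ℕ}
    (hρ : MatchesCurve W ρ S) {l : ℕ} (hl : l.Prime)
    (hlO : (l : O) ∈ IsLocalRing.maximalIdeal O) (σ : Γℚ) (u v : ℤ)
    (h : ∀ n : ℕ, 0 < n →
      LinearMap.trace (ZMod (l ^ n)) (torsionPts W (l ^ n)) (torsionRep W (l ^ n) σ) = (u : ZMod _) ∧
      LinearMap.det (torsionRep W (l ^ n) σ) = (v : ZMod (l ^ n))) :
    LinearMap.trace O ρ.V (ρ.ρ σ) = u ∧ LinearMap.det (ρ.ρ σ) = v := by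
  constructor <;> refine eq_of_forall_sub_mem fun n hn => ?_ <;>
    obtain ⟨x, y, hx, hy, hx', hy'⟩ := exists_torsion_congr T hdense hΔ hρ hl hn σ
  · simpa using Ideal.add_mem _ hx' (intCast_sub_mem hlO (hx.symm.trans (h n hn).1))
  · simpa using Ideal.add_mem _ hy' (intCast_sub_mem hlO (hy.symm.trans (h n hn).2))

include T hdense hΔ in
/-- A representation with the Frobenius polynomials of the curve outside a finite set has them at
every good prime different from the residue characteristic. -/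
theorem charpoly_frobenius_eq [IsNoetherianRing O] {ρ : GaloisRepAdic O} {S : Finset ℕ}
    (hρ : MatchesCurve W ρ S) {l : ℕ} (hl : l.Prime)
    (hlO : (l : O) ∈ IsLocalRing.maximalIdeal O) {q : ℕ} (hq : q.Prime) (hql : q ≠ l)
    (hgood : W.IsGoodPrimeFor q) {A : ValuationSubring Qbar} (hA : A.LiesOverPrime q) {φ : Γℚ}
    (hφ : A.IsFrobeniusAt φ q) :
    LinearMap.charpoly (ρ.ρ φ) = X ^ 2 - C ((W.apOfModel q : ℤ) : O) * X + C (q : O) := by
  obtain ⟨h1, h2⟩ := trace_det_eq_of_torsion T hdense hΔ hρ hl hlO φ (W.apOfModel q) q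
    fun n hn => by simpa using T.frobenius l n hl hn q hq hql hgood A hA φ hφ
  rw [charpoly_eq_of_finrank_two ρ.finrank_eq, h1, h2, Int.cast_natCast]

include T hdense hΔ in
/-- On a representation matching a semistable curve, inertia at primes away from the residue
characteristic is unipotent. -/
theorem isUnipotentOnInertiaAt [IsNoetherianRing O] {ρ : GaloisRepAdic O} {S : Finset ℕ}
    (hρ : MatchesCurve W ρ S) (hss : W.IsSemistableModel) {l : ℕ} (hl : l.Prime)
    (hlO : (l : O) ∈ IsLocalRing.maximalIdeal O) {q : ℕ} (hq : q.Prime) (hql : q ≠ l) :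
    ρ.IsUnipotentOnInertiaAt q := by
  intro A hA σ hσ
  have hcond : W.IsGoodPrimeFor q ∨ ¬ (q : ℤ) ∣ W.c₄ := by
    by_cases h : (q : ℤ) ∣ W.Δ
    · exact Or.inr (hss q hq h)
    · exact Or.inl h
  obtain ⟨h1, h2⟩ := trace_det_eq_of_torsion T hdense hΔ hρ hl hlO σ 2 1
    fun n hn => by simpa using T.inertia l n hl hn q hq hql hcond A hA σ hσ
  rw [charpoly_eq_of_finrank_two ρ.finrank_eq, h1, h2]
  simp only [Int.cast_ofNat, Int.cast_one, map_ofNat, map_one]
  ring

include T hdense hΔ in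
/-- A representation matching a curve with irreducible mod `p` representation is residually
absolutely irreducible and odd. -/
theorem residual_irreducible_odd {ρ : GaloisRepAdic O} {S : Finset ℕ}
    (hρ : MatchesCurve W ρ S) {p : ℕ} (hp : p.Prime) (hp2 : p ≠ 2)
    (hirr : W.ModRepIsIrreducible p) (hpO : (p : O) ∈ IsLocalRing.maximalIdeal O) :
    ρ.residual.IsAbsolutelyIrreducible ∧ ρ.residual.IsOdd := by
  have : Fact p.Prime := ⟨hp⟩
  -- the level `p` data
  have hfree := T.free p 1 hp one_pos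
  have hfin := T.finiteLevel p 1 hp one_pos
  have hfrob := T.frobenius p 1 hp one_pos
  have hcongr := fun σ => exists_torsion_congr T hdense hΔ hρ hp (n := 1) one_pos σ
  rw [pow_one p] at hfree hfin hfrob hcongr
  obtain ⟨-, hrank⟩ := hfree
  have : Module.Finite (ZMod p) (torsionPts W p) := Module.finite_of_finrank_eq_succ hrank
  have hdetE : ∀ c : Γℚ, c * c = 1 → c ≠ 1 → LinearMap.det (torsionRep W p c) = -1 := by
    intro c hcc hc
    refine det_involution_eq_neg_one hdense hrank hfin (avoidSet W S p) W.apOfModel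
      (fun ℓ hℓ h => ?_) (fun ℓ hℓ h A hA φ hφ => ?_) hcc hc
    · rw [Nat.prime_dvd_prime_iff_eq hℓ hp]
      exact (not_mem_avoidSet hΔ hℓ h).2.1
    · obtain ⟨-, h2, h3⟩ := not_mem_avoidSet hΔ hℓ h
      obtain ⟨e1, e2⟩ := hfrob ℓ hℓ h2 h3 A hA φ hφ
      rw [charpoly_eq_of_finrank_two hrank, e1, e2]
  have hpk : (p : IsLocalRing.ResidueField O) = 0 := by
    rw [← map_natCast (IsLocalRing.residue O) p, IsLocalRing.residue_eq_zero_iff]
    exact hpO
  have : CharP (IsLocalRing.ResidueField O) p := (CharP.charP_iff_prime_eq_zero hp).mpr hpk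
  set φ : ZMod p →+* IsLocalRing.ResidueField O := ZMod.castHom dvd_rfl _ with hφdef
  have hres : ∀ {z : O} {x : ℤ}, z - (x : O) ∈ IsLocalRing.maximalIdeal O ^ 1 →
      IsLocalRing.residue O z = φ (x : ZMod p) := fun {z x} h => by
    rw [pow_one, ← IsLocalRing.residue_eq_zero_iff, map_sub, map_intCast, sub_eq_zero] at h
    rw [h, map_intCast]
  have hodd : ρ.residual.IsOdd := by
    intro c hcc hc
    obtain ⟨x, y, -, hy, -, hy'⟩ := hcongr c
    rw [Oddness.det_residual, hres hy', ← hy, hdetE c hcc hc, map_neg, map_one]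
  refine ⟨?_, hodd⟩
  have h2 : (2 : ZMod p) ≠ 0 := fun h => hp2 ((Nat.prime_dvd_prime_iff_eq hp Nat.prime_two).mp
    ((ZMod.natCast_eq_zero_iff 2 p).mp (by exact_mod_cast h)))
  have hnoline : ∀ v : torsionPts W p, v ≠ 0 → ∃ g, ∀ a : ZMod p, torsionRep W p g v ≠ a • v := by
    intro v hv
    by_contra! hline
    rcases hirr.2 (Submodule.span (ZMod p) {v}) (fun σ x hx => by
      obtain ⟨b, rfl⟩ := Submodule.mem_span_singleton.mp hx
      obtain ⟨a, ha⟩ := hline σ
      rw [Affine.Point.galoisRepModuleEnd_apply] at ha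
      rw [smul_comm σ b v, ha, smul_smul]
      exact Submodule.smul_mem _ _ (Submodule.mem_span_singleton_self v)) with h | h
    · exact hv (Submodule.span_singleton_eq_bot.mp h)
    · have h3 := finrank_span_singleton (K := ZMod p) hv
      rw [h, finrank_top, hrank] at h3
      omega
  set k := IsLocalRing.ResidueField O
  refine eq_bot_or_top_of_no_stable_line (ρ.residual.baseChange (AlgebraicClosure k)).finrank_eq _
    (no_stable_line_of_trace_eq hrank (ρ.residual.baseChange (AlgebraicClosure k)).finrank_eq h2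
      ((algebraMap k (AlgebraicClosure k)).comp φ) (torsionRep W p) _ hnoline
      complexConjugation_mul_self
      (hdetE _ complexConjugation_mul_self Oddness.complexConjugation_ne_one) fun g => ?_)
  obtain ⟨x, y, hx, -, hx', -⟩ := hcongr g
  show LinearMap.trace (AlgebraicClosure k) _ ((ρ.residual.ρ g).baseChange (AlgebraicClosure k)) = _
  rw [LinearMap.trace_baseChange, RingHom.comp_apply, hx, ← hres hx']
  congr 1
  exact LinearMap.trace_baseChange (ρ.ρ g) (IsLocalRing.ResidueField O)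

end Fermat.Agent.ConductorLevel
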