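import Fermat.Prelude.Def_WeierstrassCurve_ConductorLevel
import Fermat.Agent.ConductorLevel.Oldform
import Fermat.Agent.ConductorLevel.HeckeChar
import Fermat.Agent.ConductorLevel.PadicRoot
import Fermat.Agent.ConductorLevel.PointCount
import Fermat.Agent.ConductorLevel.TorsionCompare
import Fermat.Agent.Frobenius.Existence

/-!
# Modularity at the conductor level

A semistable curve with the point counts of an eigenform of cube-free level is matched by an
eigenform at its conductor level: the newform below has squarefree level, supported at bad primes.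
-/

set_option autoImplicit false

noncomputable section

namespace Fermat.Agent.ConductorLevel

open Polynomial WeierstrassCurve CongruenceSubgroup ModularFormClass
open Fermat.Agent.HeckeDatum (FrobeniusPowDense)
open scoped WeierstrassCurve.Affine

/-- An eigenform shares its eigenvalues away from the level with a newform of some divisor of
its level. -/
theorem exists_newform {N : ℕ} (hN : N ≠ 0) {f : CuspForm (Gamma0 N) 2} (hf : f.IsNormalizedEigenform) :
    ∃ M : ℕ, M ∣ N ∧ ∃ g : CuspForm (Gamma0 M) 2, g.IsNewform ∧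
      ∀ ℓ : ℕ, ℓ.Prime → ¬ ℓ ∣ N → qCoeff g ℓ = qCoeff f ℓ := by
  classical
  have hex : ∃ M, M ∣ N ∧ CuspForm.GoodEigensystemOccursAt f M := ⟨N, dvd_rfl, .refl hf⟩
  obtain ⟨hMN, g, hg, hgf⟩ := Nat.find_spec hex
  refine ⟨Nat.find hex, hMN, g, ⟨hg, fun M hM hne hocc => ?_⟩, hgf⟩
  obtain ⟨g', hg', hg'g⟩ := hocc
  have hoccf : CuspForm.GoodEigensystemOccursAt f M := ⟨g', hg', fun ℓ hℓ hℓN => by
    rw [hg'g ℓ hℓ fun h => hℓN (h.trans hMN), hgf ℓ hℓ hℓN]⟩
  have hle := Nat.find_le (h := hex) ⟨hM.trans hMN, hoccf⟩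
  exact hne (le_antisymm (Nat.le_of_dvd (Nat.pos_of_dvd_of_pos hMN (Nat.pos_of_ne_zero hN)) hM) hle)

theorem ringHom_eq_intCast {A : Subring ℂ} {O : Type} [CommRing O] (φ : A →+* O) {x : A} {z : ℤ}
    (hx : (x : ℂ) = z) : φ x = z := by
  rw [show x = (z : A) from Subtype.ext (by simpa using hx), map_intCast]

theorem eq_zero_of_map_eq_zero {A : Subring ℂ} {O : Type} [CommRing O] [CharZero O]
    (φ : A →+* O) {x : A} (hint : IsIntegral ℤ (x : ℂ)) (hx : φ x = 0) : (x : ℂ) = 0 := by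
  set P := minpoly ℤ (x : ℂ) with hP
  have h1 : aeval x P = 0 := by
    apply Subtype.ext (a2 := (0 : A))
    rw [ZeroMemClass.coe_zero]
    exact (aeval_algHom_apply A.subtype.toIntAlgHom x P).symm.trans (minpoly.aeval ℤ (x : ℂ))
  have h2 : aeval (φ x) P = 0 := by
    rw [show φ x = φ.toIntAlgHom x from rfl, aeval_algHom_apply, h1, map_zero]
  rw [hx, ← coeff_zero_eq_aeval_zero'] at h2
  have h3 : P.coeff 0 = 0 := by simpa using h2
  have h4 : (X : ℤ[X]) ∣ P := X_dvd_iff.mpr h3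
  have h5 : P = X := (eq_of_monic_of_associated monic_X (minpoly.monic hint)
    (irreducible_X.associated_of_dvd (minpoly.irreducible hint) h4)).symm
  have h6 := minpoly.aeval ℤ (x : ℂ)
  rw [← hP, h5, aeval_X] at h6
  exact h6

variable {W : WeierstrassCurve ℤ} {M : ℕ} [NeZero M] {g : CuspForm (Gamma0 M) 2}

/-- The eigenform has the point counts of `W` as coefficients outside `B`. -/
def CoeffMatches (W : WeierstrassCurve ℤ) (g : CuspForm (Gamma0 M) 2) (B : Finset ℕ) : Prop :=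
  ∀ ℓ : ℕ, ℓ.Prime → ℓ ∉ B → qCoeff g ℓ = (W.apOfModel ℓ : ℂ)

/-- A representation attached to an eigenform with the point counts of `W` matches `W`. -/
theorem matchesCurve_of_charpoly (hg : g.IsNormalizedEigenform) {S B : Finset ℕ}
    (hMS : ∀ q : ℕ, q.Prime → q ∣ M → q ∈ S) {O O' : Type} [CommRing O]
    [IsLocalRing O] [CommRing O'] [Algebra O' O]
    (iota : (eigenChar g (↑S : Set ℕ) hg).range →+* O') (ρ : GaloisRepAdic O) {lam : ℕ}
    (hlamS : lam ∈ S) (hBg : CoeffMatches W g B)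
    (h : ∀ (ℓ : ℕ) (hℓ : ℓ.Prime) (_hℓlam : ℓ ≠ lam) (hℓM : ¬ ℓ ∣ M) (hℓS : ℓ ∉ (↑S : Set ℕ)),
        ∀ A : ValuationSubring (AlgebraicClosure ℚ), A.LiesOverPrime ℓ →
          ∀ σ : AlgebraicClosure ℚ ≃ₐ[ℚ] AlgebraicClosure ℚ, A.IsFrobeniusAt σ ℓ →
            LinearMap.charpoly (ρ.ρ σ) =
              X ^ 2 - C (algebraMap O' O ((iota.comp (eigenChar g (↑S : Set ℕ) hg).rangeRestrict)
                (CuspForm.heckeAlgebra.T hℓ hℓM hℓS))) * X + C ((ℓ : O))) :
    MatchesCurve W ρ (S ∪ B) := by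
  intro ℓ hℓ hℓSB _ A hA φ hφ
  rw [Finset.mem_union, not_or] at hℓSB
  rw [h ℓ hℓ (fun e => hℓSB.1 (e ▸ hlamS)) (fun hd => hℓSB.1 (hMS ℓ hℓ hd))
    (by simpa using hℓSB.1) A hA φ hφ, RingHom.comp_apply,
    ringHom_eq_intCast iota (z := W.apOfModel ℓ)
      (by rw [RingHom.coe_rangeRestrict, eigenChar_T, hBg ℓ hℓ hℓSB.2]), map_intCast]

theorem exists_iota_of_range_le_int {A : Subring ℂ} (hA : A ≤ (Int.castRingHom ℂ).range)
    (O : Type) [CommRing O] : Nonempty (A →+* O) :=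
  ⟨((Int.castRingHom O).comp (RingEquiv.ofBijective (Int.castRingHom ℂ).rangeRestrict
    ⟨fun _ _ h => Int.cast_injective (congrArg Subtype.val h),
      (Int.castRingHom ℂ).rangeRestrict_surjective⟩).symm.toRingHom).comp (Subring.inclusion hA)⟩

theorem eigenChar_range_le_int (hg : g.IsNormalizedEigenform) {S B : Finset ℕ}
    (hMS : ∀ q : ℕ, q.Prime → q ∣ M → q ∈ S) (hBS : ∀ ℓ ∈ B, ℓ.Prime → ℓ ∈ S)
    (hBg : CoeffMatches W g B) :
    (eigenChar g (↑S : Set ℕ) hg).range ≤ (Int.castRingHom ℂ).range :=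
  eigenChar_range_le g _ hg _ (fun q hq hd => hMS q hq hd)
    fun ℓ hℓ _ hℓS => ⟨W.apOfModel ℓ, (hBg ℓ hℓ fun h => hℓS (hBS ℓ h hℓ)).symm⟩

variable (T : TorsionFacts W) (hdense : FrobeniusPowDense) (hΔ : W.Δ ≠ 0)

include T hdense hΔ in
/-- A prime exactly dividing the level of the newform is a prime of bad reduction. -/
theorem dvd_disc_of_exactly_dvd (h35 : NewformSteinberg) (hg : g.IsNewform) {B : Finset ℕ}
    (hBg : CoeffMatches W g B) {q : ℕ} (hq : q.Prime) (hqM : q ∣ M) (hq2 : ¬ q ^ 2 ∣ M) :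
    (q : ℤ) ∣ W.Δ := by
  by_contra hgood
  obtain ⟨l, hl, hql⟩ : ∃ l : ℕ, l.Prime ∧ q ≠ l := by
    rcases eq_or_ne q 2 with h | h
    · exact ⟨3, Nat.prime_three, by omega⟩
    · exact ⟨2, Nat.prime_two, h⟩
  have : Fact l.Prime := ⟨hl⟩
  set S : Finset ℕ := insert l (M.primeFactors ∪ B) with hS
  have hlS : l ∈ S := Finset.mem_insert_self _ _
  have hMS : ∀ r : ℕ, r.Prime → r ∣ M → r ∈ S := fun r hr hd =>
    Finset.mem_insert_of_mem (Finset.mem_union_left _
      (Nat.mem_primeFactors.mpr ⟨hr, hd, NeZero.ne M⟩))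
  have hBS : ∀ r ∈ B, r.Prime → r ∈ S := fun r h _ =>
    Finset.mem_insert_of_mem (Finset.mem_union_right _ h)
  obtain ⟨iota⟩ := exists_iota_of_range_le_int (eigenChar_range_le_int hg.1 hMS hBS hBg) ℤ_[l]
  have hlO : (l : ℤ_[l]) ∈ IsLocalRing.maximalIdeal ℤ_[l] := by
    rw [PadicInt.maximalIdeal_eq_span_p]; exact Ideal.mem_span_singleton_self _
  obtain ⟨O, i1, i2, i3, i4, i5, i6, i7, i8, i9, -, ρ, hρ, hρq⟩ :=
    h35 hg l S ℤ_[l] hlO (eigenChar g _ hg.1) (fun ℓ hℓ hℓM hℓS => eigenChar_T g _ hg.1 hℓ hℓM hℓS)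
      iota hlS hMS
  have hlO' : (l : O) ∈ IsLocalRing.maximalIdeal O := by
    rw [← map_natCast (algebraMap ℤ_[l] O)]
    exact map_nonunit _ _ hlO
  have hmatch : MatchesCurve W ρ (S ∪ B) :=
    matchesCurve_of_charpoly hg.1 hMS iota ρ hlS hBg fun ℓ hℓ _ hℓM hℓS => hρ ℓ hℓ hℓM hℓS
  obtain ⟨A, φ, hA, hφ⟩ := Frobenius.exists_place_isFrobeniusAt hq
  have hc := charpoly_frobenius_eq T hdense hΔ hmatch hl hlO' hq hql hgood hA hφ
  have key := apOfModel_ne hq W
  rcases hρq q hq hql hqM hq2 A hA φ hφ with h | h <;> rw [hc] at h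
  · refine key.1 (Int.cast_injective (α := O) ?_)
    have h' := congrArg (fun P : O[X] => P.coeff 1) h
    simp [coeff_X_pow] at h'
    push_cast
    linear_combination -h'
  · refine key.2 (Int.cast_injective (α := O) ?_)
    have h' := congrArg (fun P : O[X] => P.coeff 1) h
    simp [coeff_X_pow] at h'
    push_cast
    linear_combination -h'

include T hdense hΔ in
/-- The square of a prime does not divide the level of the newform. -/
theorem not_sq_dvd_level (h36 : NewformCarayol) (hss : W.IsSemistableModel) (hg : g.IsNewform)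
    {B : Finset ℕ} (hBg : CoeffMatches W g B) {p : ℕ} (hp : p.Prime) (hp2 : p ≠ 2)
    (hirr : W.ModRepIsIrreducible p) (hpM : ¬ p ^ 2 ∣ M) {q : ℕ} (hq : q.Prime)
    (hq3 : ¬ q ^ 3 ∣ M) : ¬ q ^ 2 ∣ M := by
  intro hq2
  have : Fact p.Prime := ⟨hp⟩
  have hqp : q ≠ p := fun h => hpM (h ▸ hq2)
  have hfac : M.factorization q = 2 :=
    le_antisymm (Nat.lt_succ_iff.mp (lt_of_not_ge fun h =>
      hq3 ((hq.pow_dvd_iff_le_factorization (NeZero.ne M)).mpr h)))
      ((hq.pow_dvd_iff_le_factorization (NeZero.ne M)).mp hq2)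
  set S : Finset ℕ := insert p (M.primeFactors ∪ B) with hS
  have hpS : p ∈ S := Finset.mem_insert_self _ _
  have hMS : ∀ r : ℕ, r.Prime → r ∣ M → r ∈ S := fun r hr hd =>
    Finset.mem_insert_of_mem (Finset.mem_union_left _
      (Nat.mem_primeFactors.mpr ⟨hr, hd, NeZero.ne M⟩))
  have hBS : ∀ r ∈ B, r.Prime → r ∈ S := fun r h _ =>
    Finset.mem_insert_of_mem (Finset.mem_union_right _ h)
  obtain ⟨iota⟩ := exists_iota_of_range_le_int (eigenChar_range_le_int hg.1 hMS hBS hBg) ℤ_[p]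
  have hpO : (p : ℤ_[p]) ∈ IsLocalRing.maximalIdeal ℤ_[p] := by
    rw [PadicInt.maximalIdeal_eq_span_p]; exact Ideal.mem_span_singleton_self _
  obtain ⟨O, i1, i2, i3, i4, i5, i6, i7, i8, i9, -, ρ, hρ, hρq⟩ :=
    h36 hg p S ℤ_[p] hpO hp2 (eigenChar g _ hg.1)
      (fun ℓ hℓ hℓM hℓS => eigenChar_T g _ hg.1 hℓ hℓM hℓS) iota hpS hMS
      (fun O'' _ _ _ _ _ _ _ _ _ _ ρ' hρ' => residual_irreducible_odd T hdense hΔ
        (matchesCurve_of_charpoly hg.1 hMS iota ρ' hpS hBg hρ') hp hp2 hirr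
        (by rw [← map_natCast (algebraMap ℤ_[p] O'')]; exact map_nonunit _ _ hpO))
  have hpO' : (p : O) ∈ IsLocalRing.maximalIdeal O := by
    rw [← map_natCast (algebraMap ℤ_[p] O)]
    exact map_nonunit _ _ hpO
  exact hρq q hq hqp hfac (isUnipotentOnInertiaAt T hdense hΔ
    (matchesCurve_of_charpoly hg.1 hMS iota ρ hpS hBg fun ℓ hℓ _ hℓM hℓS => hρ ℓ hℓ hℓM hℓS)
    hss hp hpO' hq hqp)

include T hdense hΔ in
/-- At a good prime not dividing the level the coefficient is the point count. -/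
theorem qCoeff_eq_apOfModel (h35 : NewformSteinberg)
    (hint : ∀ S : Set ℕ, Algebra.IsIntegral ℤ (CuspForm.heckeAlgebra M 2 S))
    (hg : g.IsNewform) {B : Finset ℕ} (hBg : CoeffMatches W g B) {q : ℕ} (hq : q.Prime)
    (hqM : ¬ q ∣ M) (hgood : W.IsGoodPrimeFor q) :
    qCoeff g q = (W.apOfModel q : ℂ) := by
  have := hint ∅
  have hqint : IsIntegral ℤ (qCoeff g q) := isIntegral_qCoeff g ∅ hq hqM (Set.notMem_empty _) hg.1
  obtain ⟨l, hl, hls, ⟨ψ⟩⟩ := exists_ringHom_adjoin_padicInt hqint {q}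
  have hlq : q ≠ l := fun h => hls (by simp [h])
  set S : Finset ℕ := insert l ((M.primeFactors ∪ B).erase q) with hS
  have hlS : l ∈ S := Finset.mem_insert_self _ _
  have hMS : ∀ r : ℕ, r.Prime → r ∣ M → r ∈ S := fun r hr hd =>
    Finset.mem_insert_of_mem (Finset.mem_erase.mpr ⟨fun h => hqM (h ▸ hd),
      Finset.mem_union_left _ (Nat.mem_primeFactors.mpr ⟨hr, hd, NeZero.ne M⟩)⟩)
  have hqS : q ∉ (↑S : Set ℕ) := by simp [hS, hlq]
  have hle : (eigenChar g (↑S : Set ℕ) hg.1).range ≤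
      (Algebra.adjoin ℤ ({qCoeff g q} : Set ℂ)).toSubring := by
    refine eigenChar_range_le g _ hg.1 _ (fun r hr hd => hMS r hr hd) fun ℓ hℓ _ hℓS => ?_
    by_cases hℓq : ℓ = q
    · subst hℓq; exact Algebra.subset_adjoin rfl
    · have hℓB : ℓ ∉ B := fun h => hℓS (Finset.mem_insert_of_mem
        (Finset.mem_erase.mpr ⟨hℓq, Finset.mem_union_right _ h⟩))
      rw [hBg ℓ hℓ hℓB]
      exact intCast_mem _ _
  set iota : (eigenChar g (↑S : Set ℕ) hg.1).range →+* ℤ_[l] :=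
    RingHom.comp ψ (Subring.inclusion hle) with hiota
  have hlO : (l : ℤ_[l]) ∈ IsLocalRing.maximalIdeal ℤ_[l] := by
    rw [PadicInt.maximalIdeal_eq_span_p]; exact Ideal.mem_span_singleton_self _
  obtain ⟨O, i1, i2, i3, i4, i5, i6, i7, i8, i9, hinj, ρ, hρ, -⟩ :=
    h35 hg l S ℤ_[l] hlO (eigenChar g _ hg.1) (fun ℓ hℓ hℓM hℓS => eigenChar_T g _ hg.1 hℓ hℓM hℓS)
      iota hlS hMS
  have hlO' : (l : O) ∈ IsLocalRing.maximalIdeal O := by
    rw [← map_natCast (algebraMap ℤ_[l] O)]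
    exact map_nonunit _ _ hlO
  have hmatch : MatchesCurve W ρ (S ∪ B) :=
    matchesCurve_of_charpoly hg.1 hMS iota ρ hlS hBg fun ℓ hℓ _ hℓM hℓS => hρ ℓ hℓ hℓM hℓS
  obtain ⟨A, φ, hA, hφ⟩ := Frobenius.exists_place_isFrobeniusAt hq
  have h := charpoly_frobenius_eq T hdense hΔ hmatch hl.out hlO' hq hlq hgood hA hφ
  rw [hρ q hq hqM hqS A hA φ hφ] at h
  have h1 := congrArg (fun P : O[X] => P.coeff 1) h
  simp [coeff_X_pow] at h1
  set x := (eigenChar g (↑S : Set ℕ) hg.1).rangeRestrict (CuspForm.heckeAlgebra.T hq hqM hqS) with hx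
  have hxq : (x : ℂ) = qCoeff g q := by rw [hx, RingHom.coe_rangeRestrict, eigenChar_T]
  have h2 : iota x = ((W.apOfModel q : ℤ) : ℤ_[l]) := hinj (by rw [map_intCast]; exact h1)
  have h3 := eq_zero_of_map_eq_zero iota
    (x := x - ((W.apOfModel q : ℤ) : (eigenChar g (↑S : Set ℕ) hg.1).range))
    (by push_cast; rw [hxq]; exact hqint.sub isIntegral_algebraMap)
    (by rw [map_sub, map_intCast, h2, sub_self])
  push_cast at h3
  rw [hxq, sub_eq_zero] at h3
  exact h3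

/-- A semistable curve modular of some cube-free level is modular at its conductor level, given the
properties of newforms, of the torsion of the curve, Frobenius density and Hecke integrality. -/
theorem isModularModelOfLevel_conductorLevel (h35 : NewformSteinberg) (h36 : NewformCarayol)
    (hdense : FrobeniusPowDense)
    (hint : ∀ (M : ℕ) [NeZero M] (S : Set ℕ), Algebra.IsIntegral ℤ (CuspForm.heckeAlgebra M 2 S))
    (W : WeierstrassCurve ℤ) (hT : W.Δ ≠ 0 → TorsionFacts W) (hss : W.IsSemistableModel) (N : ℕ)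
    (p : ℕ) (hp : p.Prime) (hp2 : p ≠ 2) (hirr : W.ModRepIsIrreducible p)
    (hp2N : ¬ p ^ 2 ∣ N)
    (hN : W.IsModularModelOfLevel N) (hbad : ∀ ℓ : ℕ, ℓ.Prime → (ℓ : ℤ) ∣ W.Δ → ℓ ∣ N)
    (hN3 : ∀ q : ℕ, q.Prime → ¬ q ^ 3 ∣ N) :
    W.IsModularModelOfLevel W.conductorLevel := by
  have hN0 : N ≠ 0 := fun h => hN3 2 Nat.prime_two (h ▸ dvd_zero _)
  have hΔ : W.Δ ≠ 0 := fun h => by
    obtain ⟨r, hr, hr'⟩ := Nat.exists_infinite_primes (N + 1)
    exact absurd (Nat.le_of_dvd (Nat.pos_of_ne_zero hN0) (hbad r hr' (h ▸ dvd_zero _))) (by omega)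
  have T := hT hΔ
  obtain ⟨f, hf, hfW⟩ := hN
  obtain ⟨M, hMN, g, hg, hgf⟩ := exists_newform hN0 hf
  have : NeZero M := ⟨fun h => hN0 (zero_dvd_iff.mp (h ▸ hMN))⟩
  set B : Finset ℕ := N.primeFactors ∪ W.Δ.natAbs.primeFactors with hB
  have hBg : CoeffMatches W g B := by
    intro ℓ hℓ hℓB
    rw [hB, Finset.mem_union, not_or] at hℓB
    have hℓN : ¬ ℓ ∣ N := fun h => hℓB.1 (Nat.mem_primeFactors.mpr ⟨hℓ, h, hN0⟩)
    rw [hgf ℓ hℓ hℓN]
    exact hfW ℓ hℓ (fun h => hℓB.2 (Nat.mem_primeFactors.mpr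
      ⟨hℓ, Int.natCast_dvd.mp h, Int.natAbs_ne_zero.mpr hΔ⟩)) hℓN
  have hsq : Squarefree M := Nat.squarefree_iff_prime_squarefree.mpr fun q hq h =>
    not_sq_dvd_level T hdense hΔ h36 hss hg hBg hp hp2 hirr (fun h' => hp2N (h'.trans hMN)) hq
      (fun h' => hN3 q hq (h'.trans hMN)) (by rwa [sq])
  have hMR : M ∣ W.conductorLevel := by
    rw [← Nat.prod_primeFactors_of_squarefree hsq]
    refine Finset.prod_primes_dvd _ (fun q hq => (Nat.prime_of_mem_primeFactors hq).prime)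
      fun q hq => ?_
    have hq' := Nat.prime_of_mem_primeFactors hq
    exact (W.prime_dvd_conductorLevel_iff hΔ hq').mpr (dvd_disc_of_exactly_dvd T hdense hΔ h35 hg
      hBg hq' (Nat.dvd_of_mem_primeFactors hq)
      fun h => hq'.not_isUnit (hsq q (by rwa [← sq])))
  obtain ⟨d, hd⟩ := hMR
  obtain ⟨h, hh, hhg⟩ := exists_eigenform_of_squarefree_multiple W.conductorLevel
    W.squarefree_conductorLevel d M hd.symm g hg.1
  refine ⟨h, hh, fun q hq hgood hqR => ?_⟩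
  rw [hhg q hq hqR]
  exact qCoeff_eq_apOfModel T hdense hΔ h35 (fun S => hint M S) hg hBg hq
    (fun h' => hqR (hd ▸ h'.mul_right d)) hgood

end Fermat.Agent.ConductorLevel
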