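import Mathlib.AlgebraicGeometry.EllipticCurve.Affine.Point
import Mathlib.RingTheory.RootsOfUnity.AlgebraicallyClosed
import Mathlib.RingTheory.RootsOfUnity.EnoughRootsOfUnity
import Mathlib.FieldTheory.IsAlgClosed.Basic
import Mathlib.Tactic.LinearCombination

/-!
A nodal Weierstrass cubic over an algebraically closed field has nonsingular points of every
order invertible in the field: the slopes of the lines through the node parametrise them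
multiplicatively.
-/

set_option autoImplicit false

noncomputable section

namespace Fermat.Agent.ConductorLevel

open WeierstrassCurve WeierstrassCurve.Affine

variable {k : Type*} [Field k]

/-- A node `(x₀, y₀)` of `W` with tangent slopes `α` and `β`. -/
structure NodeData (W : WeierstrassCurve k) where
  x₀ : k
  y₀ : k
  α : k
  β : k
  ha₁ : W.a₁ = -(α + β)
  ha₂ : W.a₂ = -(α * β) - 3 * x₀
  ha₃ : W.a₃ = -(2 * y₀) - W.a₁ * x₀
  ha₄ : W.a₄ = W.a₁ * y₀ - 3 * x₀ ^ 2 - 2 * W.a₂ * x₀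
  ha₆ : W.a₆ = y₀ ^ 2 + W.a₁ * x₀ * y₀ + W.a₃ * y₀ - x₀ ^ 3 - W.a₂ * x₀ ^ 2 - W.a₄ * x₀
  hne : α ≠ β

theorem exists_nodeData [IsAlgClosed k] (W : WeierstrassCurve k) (hΔ : W.Δ = 0) (hc₄ : W.c₄ ≠ 0) :
    Nonempty (NodeData W) := by
  have hc₆ : W.c₆ ≠ 0 := fun h => hc₄ (eq_zero_of_pow_eq_zero (n := 3) (by
    linear_combination -W.c_relation + 1728 * hΔ + W.c₆ * h))
  set x₀ := (18 * W.b₆ - W.b₂ * W.b₄) / W.c₄ with hx₀
  set D := W.a₁ ^ 2 + 4 * (W.a₂ + 3 * x₀) with hD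
  have hD0 : D ≠ 0 := by
    intro h
    apply hc₆
    have h1 : D * W.c₄ = -W.c₆ := by
      rw [hD, hx₀]
      field_simp
      simp only [c₄, c₆, b₂]
      ring
    rw [h, zero_mul] at h1
    exact neg_eq_zero.mp h1.symm
  obtain ⟨y₀, hy₃, hy₄, hy₆⟩ : ∃ y₀ : k, W.a₃ = -(2 * y₀) - W.a₁ * x₀ ∧
      W.a₄ = W.a₁ * y₀ - 3 * x₀ ^ 2 - 2 * W.a₂ * x₀ ∧
      W.a₆ = y₀ ^ 2 + W.a₁ * x₀ * y₀ + W.a₃ * y₀ - x₀ ^ 3 - W.a₂ * x₀ ^ 2 - W.a₄ * x₀ := by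
    by_cases h2 : (2 : k) = 0
    · have ha : W.a₁ ≠ 0 := fun h => hc₄ (by
        simp only [c₄, b₂, b₄, h]
        linear_combination (8 * W.a₂ ^ 2 - 24 * W.a₄) * h2)
      have hx : x₀ = W.a₃ / W.a₁ := by
        rw [hx₀, eq_div_iff ha, div_mul_eq_mul_div, div_eq_iff hc₄]
        simp only [c₄, b₂, b₄, b₆]
        linear_combination (-6 * W.a₃ * W.a₁ ^ 2 * W.a₂ - W.a₃ * W.a₁ ^ 4 + 21 * W.a₃ ^ 2 * W.a₁ +
          36 * W.a₆ * W.a₁ - 4 * W.a₁ * W.a₂ * W.a₄ - W.a₁ ^ 3 * W.a₄ - 8 * W.a₃ * W.a₂ ^ 2 +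
          24 * W.a₃ * W.a₄) * h2
      refine ⟨(x₀ ^ 2 + W.a₄) / W.a₁, ?_, ?_, ?_⟩
      · rw [hx]; field_simp
        linear_combination (W.a₃ * W.a₁ ^ 3 + W.a₃ ^ 2 + W.a₁ ^ 2 * W.a₄) * h2
      · rw [mul_div_cancel₀ _ ha]
        linear_combination (x₀ * W.a₂ + x₀ ^ 2) * h2
      · have hΔ' := hΔ
        simp only [WeierstrassCurve.Δ, b₂, b₄, b₆, b₈] at hΔ'
        rw [hx]
        field_simp
        linear_combination hΔ' +
          (-(W.a₆ * W.a₁ * W.a₃ * W.a₂ * 72) - W.a₆ * W.a₁ ^ 2 * W.a₄ * 36 + W.a₆ * W.a₁ ^ 2 * W.a₂ ^ 2 * 24 - W.a₆ * W.a₁ ^ 3 * W.a₃ * 18 + W.a₆ * W.a₁ ^ 4 * W.a₂ * 6 + W.a₆ * W.a₁ ^ 6 * 1 + W.a₆ * W.a₃ ^ 2 * 108 - W.a₆ * W.a₄ * W.a₂ * 144 + W.a₆ * W.a₂ ^ 3 * 32 + W.a₆ ^ 2 * 216 - W.a₁ * W.a₃ * W.a₄ * W.a₂ ^ 2 * 8 + W.a₁ * W.a₃ * W.a₄ ^ 2 * 48 - W.a₁ * W.a₃ ^ 3 * W.a₂ * 18 + W.a₁ ^ 2 * W.a₃ ^ 2 * W.a₄ * 14 + W.a₁ ^ 2 * W.a₃ ^ 2 * W.a₂ ^ 2 * 4 - W.a₁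 ^ 2 * W.a₄ ^ 2 * W.a₂ * 4 - W.a₁ ^ 3 * W.a₃ * W.a₄ * W.a₂ * 4 - W.a₁ ^ 3 * W.a₃ ^ 3 * 1 + W.a₁ ^ 4 * W.a₃ ^ 2 * W.a₂ * 1 - W.a₁ ^ 4 * W.a₄ ^ 2 * 1 - W.a₁ ^ 5 * W.a₃ * W.a₄ * 1 - W.a₃ ^ 2 * W.a₄ * W.a₂ * 36 + W.a₃ ^ 2 * W.a₂ ^ 3 * 8 + W.a₃ ^ 4 * 13 - W.a₄ ^ 2 * W.a₂ ^ 2 * 8 + W.a₄ ^ 3 * 32) * h2
    · set h := W.a₁ * x₀ + W.a₃ with hh
      have hg : 6 * x₀ ^ 2 + W.b₂ * x₀ + W.b₄ = 0 := by
        have h1 : (6 * x₀ ^ 2 + W.b₂ * x₀ + W.b₄) * W.c₄ ^ 2 = -72 * W.Δ := by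
          rw [hx₀]; field_simp
          simp only [c₄, WeierstrassCurve.Δ, b₂, b₄, b₆, b₈]
          ring
        rw [hΔ, mul_zero] at h1
        exact (mul_eq_zero.mp h1).resolve_right (pow_ne_zero _ hc₄)
      have hf : 4 * x₀ ^ 3 + W.b₂ * x₀ ^ 2 + 2 * W.b₄ * x₀ + W.b₆ = 0 := by
        have h1 : (4 * x₀ ^ 3 + W.b₂ * x₀ ^ 2 + 2 * W.b₄ * x₀ + W.b₆) * W.c₄ ^ 3 =
            4 * W.c₆ * W.Δ := by
          rw [hx₀]; field_simp
          simp only [c₄, c₆, WeierstrassCurve.Δ, b₂, b₄, b₆, b₈]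
          ring
        rw [hΔ, mul_zero] at h1
        exact (mul_eq_zero.mp h1).resolve_right (pow_ne_zero _ hc₄)
      simp only [b₂, b₄, b₆] at hg hf
      refine ⟨-h / 2, ?_, ?_, ?_⟩
      · rw [hh]; field_simp; ring
      · rw [hh]; field_simp; linear_combination hg
      · rw [hh]; field_simp; linear_combination hf
  obtain ⟨s, hs⟩ := IsAlgClosed.exists_root
    (Polynomial.C 1 * Polynomial.X ^ 2 + Polynomial.C W.a₁ * Polynomial.X +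
      Polynomial.C (-(W.a₂ + 3 * x₀))) (by rw [Polynomial.degree_quadratic one_ne_zero]; decide)
  simp only [Polynomial.IsRoot.def, Polynomial.eval_add, Polynomial.eval_mul, Polynomial.eval_C,
    Polynomial.eval_pow, Polynomial.eval_X] at hs
  refine ⟨⟨x₀, y₀, s, -W.a₁ - s, by ring, by linear_combination -hs, hy₃, hy₄, hy₆, fun h => hD0 ?_⟩⟩
  rw [hD]
  linear_combination (2 * s + W.a₁) * h - 4 * hs

namespace NodeData

variable {W : WeierstrassCurve k} (d : NodeData W)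

/-- Abscissa of the point on the line of slope `t` through the node. -/
def px (t : k) : k := (t - d.α) * (t - d.β) + d.x₀

/-- Ordinate of the point on the line of slope `t` through the node. -/
def py (t : k) : k := t * ((t - d.α) * (t - d.β)) + d.y₀

/-- The parametrised point lies on the nodal curve. -/
theorem equation (t : k) : W.toAffine.Equation (d.px t) (d.py t) := by
  rw [equation_iff]
  simp only [px, py, d.ha₆, d.ha₄, d.ha₃, d.ha₂, d.ha₁]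
  ring

/-- The parametrised point is non-singular away from the two tangent slopes. -/
theorem nonsingular {t : k} (hα : t ≠ d.α) (hβ : t ≠ d.β) :
    W.toAffine.Nonsingular (d.px t) (d.py t) := by
  have hX : (t - d.α) * (t - d.β) ≠ 0 := mul_ne_zero (sub_ne_zero.mpr hα) (sub_ne_zero.mpr hβ)
  refine (nonsingular_iff' _ _).mpr ⟨d.equation t, ?_⟩
  by_contra! hcon
  obtain ⟨h1, h2⟩ := hcon
  simp only [px, py, d.ha₄, d.ha₃, d.ha₂, d.ha₁] at h1 h2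
  have e2 : 2 * t - d.α - d.β = 0 := by
    refine (mul_eq_zero.mp ?_).resolve_left hX
    linear_combination h2
  have e1 : -(d.α + d.β) * t - 3 * ((t - d.α) * (t - d.β)) + 2 * (d.α * d.β) = 0 := by
    refine (mul_eq_zero.mp ?_).resolve_left hX
    linear_combination h1
  apply hX
  linear_combination -e1 - t * e2

/-- The slope attached to `w`. -/
def slopeParam (w : k) : k := (d.α - d.β * w) / (1 - w)

theorem slopeParam_ne {w : k} (hw0 : w ≠ 0) (hw1 : w ≠ 1) :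
    d.slopeParam w ≠ d.α ∧ d.slopeParam w ≠ d.β := by
  have h1 : (1 : k) - w ≠ 0 := sub_ne_zero.mpr (Ne.symm hw1)
  constructor <;> intro h <;> rw [slopeParam, div_eq_iff h1] at h
  · exact hw0 ((mul_eq_zero.mp (show (d.α - d.β) * w = 0 by linear_combination h)).resolve_left
      (sub_ne_zero.mpr d.hne))
  · exact d.hne (by linear_combination h)

variable [DecidableEq k]

/-- The point attached to a unit `w` of `k`; `w = 1` gives the origin. -/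
def pt (w : k) : W.toAffine.Point :=
  if h : w ≠ 0 ∧ w ≠ 1 then
    .some _ _ (d.nonsingular (d.slopeParam_ne h.1 h.2).1 (d.slopeParam_ne h.1 h.2).2)
  else 0

theorem pt_of_ne {w : k} (h0 : w ≠ 0) (h1 : w ≠ 1) :
    d.pt w = .some _ _ (d.nonsingular (d.slopeParam_ne h0 h1).1 (d.slopeParam_ne h0 h1).2) :=
  dif_pos ⟨h0, h1⟩

@[simp] theorem pt_one : d.pt 1 = 0 := dif_neg fun h => h.2 rfl

theorem pt_ne_zero {w : k} (h0 : w ≠ 0) (h1 : w ≠ 1) : d.pt w ≠ 0 := by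
  rw [d.pt_of_ne h0 h1]; exact Point.some_ne_zero _

theorem pt_add {w₁ w₂ : k} (h₁ : w₁ ≠ 0) (h₂ : w₂ ≠ 0) :
    d.pt w₁ + d.pt w₂ = d.pt (w₁ * w₂) := by
  by_cases e₁ : w₁ = 1
  · simp [e₁]
  by_cases e₂ : w₂ = 1
  · simp [e₂]
  have u₁ : (1 : k) - w₁ ≠ 0 := sub_ne_zero.mpr (Ne.symm e₁)
  have u₂ : (1 : k) - w₂ ≠ 0 := sub_ne_zero.mpr (Ne.symm e₂)
  obtain ⟨hα₁, hβ₁⟩ := d.slopeParam_ne h₁ e₁
  obtain ⟨hα₂, hβ₂⟩ := d.slopeParam_ne h₂ e₂
  rw [d.pt_of_ne h₁ e₁, d.pt_of_ne h₂ e₂]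
  set t₁ := d.slopeParam w₁ with ht₁
  set t₂ := d.slopeParam w₂ with ht₂
  have hαβ : d.α - d.β ≠ 0 := sub_ne_zero.mpr d.hne
  have hsum : t₁ + t₂ - d.α - d.β = (d.α - d.β) * (1 - w₁ * w₂) / ((1 - w₁) * (1 - w₂)) := by
    rw [ht₁, ht₂, slopeParam, slopeParam]; field_simp; ring
  by_cases e : w₁ * w₂ = 1
  · have hs0 : t₂ = d.α + d.β - t₁ := by
      rw [e, sub_self, mul_zero, zero_div] at hsum
      linear_combination hsum
    rw [e, pt_one]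
    refine Point.add_of_Y_eq (x₁ := d.px t₁) (x₂ := d.px t₂) (by rw [hs0, px, px]; ring) ?_
    show d.py t₁ = W.toAffine.negY (d.px t₂) (d.py t₂)
    simp only [negY, px, py, hs0, d.ha₃, d.ha₁]
    ring
  have u : (1 : k) - w₁ * w₂ ≠ 0 := sub_ne_zero.mpr (Ne.symm e)
  have hs : t₁ + t₂ - d.α - d.β ≠ 0 := by
    rw [hsum]; exact div_ne_zero (mul_ne_zero hαβ u) (mul_ne_zero u₁ u₂)
  rw [d.pt_of_ne (mul_ne_zero h₁ h₂) e]
  -- the chord slope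
  set l := (t₁ ^ 2 + t₁ * t₂ + t₂ ^ 2 - (d.α + d.β) * (t₁ + t₂) + d.α * d.β) /
    (t₁ + t₂ - d.α - d.β) with hl
  have hxy : ¬ (d.px t₁ = d.px t₂ ∧ d.py t₁ = W.toAffine.negY (d.px t₂) (d.py t₂)) := by
    rintro ⟨hx, hy⟩
    simp only [px, py, negY, d.ha₃, d.ha₁] at hx hy
    have ht : t₁ = t₂ := by
      have : (t₁ - t₂) * (t₁ + t₂ - d.α - d.β) = 0 := by linear_combination hx
      exact sub_eq_zero.mp ((mul_eq_zero.mp this).resolve_right hs)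
    have hX : (t₁ - d.α) * (t₁ - d.β) ≠ 0 :=
      mul_ne_zero (sub_ne_zero.mpr hα₁) (sub_ne_zero.mpr hβ₁)
    rw [← ht] at hy hs
    apply hs
    refine (mul_eq_zero.mp ?_).resolve_left hX
    linear_combination hy
  have hslope : W.toAffine.slope (d.px t₁) (d.px t₂) (d.py t₁) (d.py t₂) = l := by
    by_cases hx : d.px t₁ = d.px t₂
    · have hy : d.py t₁ ≠ W.toAffine.negY (d.px t₂) (d.py t₂) := fun h => hxy ⟨hx, h⟩
      have ht : t₁ = t₂ := by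
        simp only [px] at hx
        have : (t₁ - t₂) * (t₁ + t₂ - d.α - d.β) = 0 := by linear_combination hx
        exact sub_eq_zero.mp ((mul_eq_zero.mp this).resolve_right hs)
      rw [slope_of_Y_ne hx hy]
      rw [← ht] at hy
      have hden : d.py t₁ - W.toAffine.negY (d.px t₁) (d.py t₁) ≠ 0 := sub_ne_zero.mpr hy
      rw [← ht] at hs
      rw [hl, ← ht, div_eq_div_iff hden hs]
      simp only [px, py, negY, d.ha₄, d.ha₃, d.ha₂, d.ha₁]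
      ring
    · rw [slope_of_X_ne hx, hl, div_eq_div_iff (sub_ne_zero.mpr hx) hs]
      simp only [px, py]
      ring
  rw [Point.add_some hxy]
  have ht₃ : d.slopeParam (w₁ * w₂) = (t₁ * t₂ - d.α * d.β) / (t₁ + t₂ - d.α - d.β) := by
    rw [hsum, slopeParam, ht₁, ht₂, slopeParam, slopeParam]
    field_simp
    ring
  simp only [Point.some.injEq]
  rw [hslope, ht₃]
  constructor <;>
  · simp only [addX, addY, negAddY, negY, px, py, d.ha₃, d.ha₂, d.ha₁, hl]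
    field_simp
    ring

theorem nsmul_pt {w : k} (h : w ≠ 0) (n : ℕ) : n • d.pt w = d.pt (w ^ n) := by
  induction n with
  | zero => simp
  | succ n ih => rw [succ_nsmul, ih, d.pt_add (pow_ne_zero n h) h, pow_succ]

end NodeData

open scoped Classical in
/-- A nodal cubic over an algebraically closed field has a point of each order invertible in it. -/
theorem exists_addOrderOf_eq [IsAlgClosed k] (W : WeierstrassCurve k) (hΔ : W.Δ = 0)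
    (hc₄ : W.c₄ ≠ 0) {m : ℕ} (hm : (m : k) ≠ 0) :
    ∃ Q : W.toAffine.Point, addOrderOf Q = m := by
  obtain ⟨d⟩ := exists_nodeData W hΔ hc₄
  have : NeZero (m : k) := ⟨hm⟩
  have : NeZero m := ⟨fun h => hm (by simp [h])⟩
  obtain ⟨ζ, hζ⟩ := HasEnoughRootsOfUnity.exists_primitiveRoot k m
  have h0 : ζ ≠ 0 := hζ.ne_zero (NeZero.ne m)
  refine ⟨d.pt ζ, ?_⟩
  rw [hζ.eq_orderOf, ← orderOf_ofAdd_eq_addOrderOf]
  refine orderOf_eq_orderOf_iff.mpr fun n => ?_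
  rw [← ofAdd_nsmul, ofAdd_eq_one, d.nsmul_pt h0]
  refine ⟨fun h => ?_, fun h => by rw [h, d.pt_one]⟩
  by_contra h1
  exact d.pt_ne_zero (pow_ne_zero n h0) h1 h

end Fermat.Agent.ConductorLevel
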