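import Fermat.Agent.ConductorLevel.Discharged
import Fermat.Agent.ECFrobenius.Main
import Fermat.Agent.ECReduction.Frobenius
import Fermat.Agent.ECReduction.Bijective

/-!
# Frobenius on torsion and modularity at the conductor level

The trace and determinant of Frobenius on the torsion of an integral Weierstrass curve, and the
resulting theorem: a semistable curve which is modular of some level is modular at its conductor
level, given the local behaviour of newforms at primes dividing the level once or twice.
-/

set_option autoImplicit false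

noncomputable section

open scoped WeierstrassCurve.Affine

namespace Fermat.Agent.ConductorLevel

open WeierstrassCurve Fermat.Agent.ECReduction

open scoped Classical in
/-- Frobenius at a good prime has trace `a_q` and determinant `q` on prime power torsion. -/
theorem torsionFrobenius (W : WeierstrassCurve ℤ) : TorsionFrobenius W := by
  intro l n hl hn q hq hql hgood A hA φ hφ
  let _alg := residueAlgebra hA hq
  have : Fact q.Prime := ⟨hq⟩
  have hm : ¬ q ∣ l ^ n := fun h =>
    hql ((Nat.prime_dvd_prime_iff_eq hq hl).mp (hq.dvd_of_dvd_pow h))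
  have hmκ : ((l ^ n : ℕ) : IsLocalRing.ResidueField A) ≠ 0 := natCast_residue_ne_zero hA hq hm
  have : IsAlgClosed (IsLocalRing.ResidueField A) := GaloisBasics.residueField_isAlgClosed A
  have : (W.reductionMod q).IsElliptic := ⟨isUnit_iff_ne_zero.mpr (by
    rw [reductionMod, map_Δ, eq_intCast, Ne, ZMod.intCast_zmod_eq_zero_iff_dvd]; exact hgood)⟩
  have hbij := redTorsion_bijective_of_not_dvd W hA hq hgood hm
  have hpsi : ∀ a, frobAlgHom A q hA hq a = a ^ Nat.card (ZMod q) := fun a => by
    rw [Nat.card_zmod]; exact frobAlgHom_apply hA hq a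
  constructor
  · refine ((galoisTrace_eq_frobTorsion W hA hq hgood hφ hbij).trans ?_)
    exact ECFrobenius.trace_frobenius (W.reductionMod q) (frobAlgHom A q hA hq) hpsi hmκ _
      (coe_frobTorsion W hA hq _)
  · have h := galoisRepDet_eq_frobTorsion W hA hq hgood hφ hbij
    rw [ECFrobenius.det_frobenius (W.reductionMod q) (frobAlgHom A q hA hq) hpsi hmκ _
      (coe_frobTorsion W hA hq _), Nat.card_zmod, Affine.Point.galoisRepDet_apply,
      LinearEquiv.coe_det] at h
    exact h

/-- A semistable curve modular of some cube-free level is modular at its conductor level, given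
the Steinberg and Carayol properties of newforms. -/
theorem isModularModelOfLevel_conductorLevel_of_S35_S36 (h35 : NewformSteinberg)
    (h36 : NewformCarayol) (W : WeierstrassCurve ℤ) (hss : W.IsSemistableModel) (N : ℕ) (p : ℕ)
    (hp : p.Prime) (hp2 : p ≠ 2) (hirr : W.ModRepIsIrreducible p) (hp2N : ¬ p ^ 2 ∣ N)
    (hN : W.IsModularModelOfLevel N) (hbad : ∀ ℓ : ℕ, ℓ.Prime → (ℓ : ℤ) ∣ W.Δ → ℓ ∣ N)
    (hN3 : ∀ q : ℕ, q.Prime → ¬ q ^ 3 ∣ N) :
    W.IsModularModelOfLevel W.conductorLevel :=
  isModularModelOfLevel_conductorLevel h35 h36 frobeniusPowDense heckeAlgebra_isIntegral W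
    (fun hΔ => torsionFacts_of_frobenius frobeniusPowDense hΔ (torsionFrobenius W)) hss N p hp hp2
    hirr hp2N hN hbad hN3

end Fermat.Agent.ConductorLevel
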